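import Fermat.Agent.ThreePrimes.Singular
import Fermat.Agent.WaringAsymptotic.Multiplicative

/-!
# The complete sums over units

`C_q (a) = ∑ e (a x² / q)` over the `x` prime to `q` is multiplicative, vanishes modulo the prime
powers `p ^ l` with `l ≥ 2`, `p` odd, and `2 ^ l` with `l ≥ 4`, and is `O (√p)` modulo a prime.
-/

set_option autoImplicit false

noncomputable section

namespace FA.HuaSquares

open Finset FA.ThreePrimes FA.WaringAsymptotic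

/-- `C_q (a)`. -/
def primeSquareSum (q : ℕ) (a : ℤ) : ℂ :=
  ∑ r ∈ unitResidues q, eAdd ((a : ℝ) * (r : ℝ) ^ 2 / q)

/-- `C_q (a) / φ q`. -/
def primeFactor (q : ℕ) (a : ℤ) : ℂ := primeSquareSum q a / q.totient

theorem sum_unitResidues_eq_units {q : ℕ} [NeZero q] (G : ZMod q → ℂ) :
    ∑ r ∈ unitResidues q, G (r : ZMod q) = ∑ u : (ZMod q)ˣ, G u := by
  have hu : ∀ r ∈ unitResidues q, IsUnit (r : ZMod q) := fun r hr => by
    rw [unitResidues, mem_filter] at hr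
    exact (ZMod.isUnit_iff_coprime r q).2 hr.2.symm
  refine sum_bij' (fun r hr => (hu r hr).unit) (fun u _ => (u : ZMod q).val) (fun r _ => mem_univ _)
    (fun u _ => ?_) (fun r hr => ?_) (fun u _ => Units.ext ?_) fun r hr => ?_
  · rw [unitResidues, mem_filter, mem_range]
    exact ⟨ZMod.val_lt _, (ZMod.val_coe_unit_coprime u).symm⟩
  · rw [unitResidues, mem_filter, mem_range] at hr
    exact ZMod.val_cast_of_lt hr.1
  · rw [IsUnit.unit_spec, ZMod.natCast_zmod_val]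
  · rw [IsUnit.unit_spec]

theorem eAdd_sq_eq_char {q : ℕ} [NeZero q] (a : ℤ) (r : ℕ) :
    eAdd ((a : ℝ) * (r : ℝ) ^ 2 / q) = ZMod.stdAddChar ((a : ZMod q) * (r : ZMod q) ^ 2) := by
  have h := eAdd_div_eq_char (q := q) (a * (r : ℤ) ^ 2)
  push_cast at h
  exact h

theorem primeSquareSum_eq (q : ℕ) [NeZero q] (a : ℤ) :
    primeSquareSum q a = ∑ u : (ZMod q)ˣ, ZMod.stdAddChar ((a : ZMod q) * (u : ZMod q) ^ 2) := by
  rw [primeSquareSum, ← sum_unitResidues_eq_units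
    fun x : ZMod q => ZMod.stdAddChar ((a : ZMod q) * x ^ 2)]
  exact sum_congr rfl fun r _ => eAdd_sq_eq_char a r

theorem norm_primeSquareSum_le (q : ℕ) (a : ℤ) : ‖primeSquareSum q a‖ ≤ q.totient := by
  refine (norm_sum_le _ _).trans ?_
  simp [norm_eAdd, card_unitResidues]

theorem norm_primeFactor_le_one (q : ℕ) (a : ℤ) : ‖primeFactor q a‖ ≤ 1 := by
  rw [primeFactor, norm_div, Complex.norm_natCast]
  exact div_le_one_of_le₀ (norm_primeSquareSum_le q a) (Nat.cast_nonneg _)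

theorem crtResidue_bijOn {m n : ℕ} (h : m.Coprime n) :
    Set.InjOn (fun z : ℕ × ℕ => crtResidue m n z.1 z.2)
      (unitResidues m ×ˢ unitResidues n : Finset (ℕ × ℕ)) ∧
    (unitResidues m ×ˢ unitResidues n).image (fun z : ℕ × ℕ => crtResidue m n z.1 z.2) =
      unitResidues (m * n) := by
  classical
  have hinj : Set.InjOn (fun z : ℕ × ℕ => crtResidue m n z.1 z.2)
      (unitResidues m ×ˢ unitResidues n : Finset (ℕ × ℕ)) := by
    intro z hz w hw e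
    simp only [mem_coe, mem_product, unitResidues, mem_filter, mem_range] at hz hw
    have a1 := congrArg (fun r : ℕ => (r : ZMod m)) e
    have a2 := congrArg (fun r : ℕ => (r : ZMod n)) e
    simp only [crtResidue_cast_left, crtResidue_cast_right] at a1 a2
    have b1 := ((ZMod.isUnit_iff_coprime n m).2 h.symm).mul_right_cancel a1
    have b2 := ((ZMod.isUnit_iff_coprime m n).2 h).mul_right_cancel a2
    rw [ZMod.natCast_eq_natCast_iff', Nat.mod_eq_of_lt hz.1.1, Nat.mod_eq_of_lt hw.1.1] at b1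
    rw [ZMod.natCast_eq_natCast_iff', Nat.mod_eq_of_lt hz.2.1, Nat.mod_eq_of_lt hw.2.1] at b2
    exact Prod.ext b1 b2
  refine ⟨hinj, eq_of_subset_of_card_le (fun r hr => ?_) ?_⟩
  · obtain ⟨z, hz, rfl⟩ := mem_image.1 hr
    exact crtResidue_mem h (mem_product.1 hz).1 (mem_product.1 hz).2
  · rw [card_image_of_injOn hinj, card_product, card_unitResidues, card_unitResidues,
      card_unitResidues, Nat.totient_mul h]

theorem eAdd_crt_split {q₁ q₂ : ℕ} (h₁ : 0 < q₁) (h₂ : 0 < q₂) (r₁ r₂ : ℕ) (x : ℤ) :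
    eAdd ((x : ℝ) * (crtResidue q₁ q₂ r₁ r₂ : ℕ) / (q₁ * q₂ : ℕ)) =
      eAdd ((x : ℝ) * r₁ / q₁) * eAdd ((x : ℝ) * r₂ / q₂) := by
  rw [← eAdd_add]
  obtain ⟨m, hm⟩ : ∃ m, m = (r₁ * q₂ + r₂ * q₁) / (q₁ * q₂) := ⟨_, rfl⟩
  have h : (r₁ : ℝ) * q₂ + r₂ * q₁ = (crtResidue q₁ q₂ r₁ r₂ : ℕ) + (q₁ * q₂ : ℕ) * m := by
    rw [crtResidue, hm]
    exact_mod_cast (Nat.mod_add_div (r₁ * q₂ + r₂ * q₁) (q₁ * q₂)).symm
  rw [← eAdd_add_intCast ((x : ℝ) * (crtResidue q₁ q₂ r₁ r₂ : ℕ) / (q₁ * q₂ : ℕ)) (x * m)]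
  congr 1
  have : (q₁ : ℝ) ≠ 0 := Nat.cast_ne_zero.2 h₁.ne'
  have : (q₂ : ℝ) ≠ 0 := Nat.cast_ne_zero.2 h₂.ne'
  push_cast at h ⊢
  field_simp
  linear_combination (-(x : ℝ)) * h

/-- **Multiplicativity.** -/
theorem primeSquareSum_crt {q₁ q₂ : ℕ} (hco : q₁.Coprime q₂) (h₁ : 0 < q₁) (h₂ : 0 < q₂)
    (r₁ r₂ : ℕ) : primeSquareSum (q₁ * q₂) (crtResidue q₁ q₂ r₁ r₂ : ℕ) =
      primeSquareSum q₁ r₁ * primeSquareSum q₂ r₂ := by
  have : NeZero q₁ := ⟨h₁.ne'⟩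
  have : NeZero q₂ := ⟨h₂.ne'⟩
  obtain ⟨hinj, himg⟩ := crtResidue_bijOn hco
  obtain ⟨G₁, hG₁⟩ : ∃ G : ZMod q₁ → ℂ,
      G = fun x => ZMod.stdAddChar (((r₁ : ℤ) : ZMod q₁) * x ^ 2) := ⟨_, rfl⟩
  obtain ⟨G₂, hG₂⟩ : ∃ G : ZMod q₂ → ℂ,
      G = fun x => ZMod.stdAddChar (((r₂ : ℤ) : ZMod q₂) * x ^ 2) := ⟨_, rfl⟩
  have key : ∀ z ∈ unitResidues q₁ ×ˢ unitResidues q₂,
      eAdd ((((crtResidue q₁ q₂ r₁ r₂ : ℕ) : ℤ) : ℝ) *
        ((crtResidue q₁ q₂ z.1 z.2 : ℕ) : ℝ) ^ 2 / (q₁ * q₂ : ℕ)) =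
      G₁ ((z.1 : ZMod q₁) * (q₂ : ZMod q₁)) * G₂ ((z.2 : ZMod q₂) * (q₁ : ZMod q₂)) := by
    intro z _
    obtain ⟨x, hx⟩ : ∃ x, x = crtResidue q₁ q₂ z.1 z.2 := ⟨_, rfl⟩
    rw [← crtResidue_cast_left q₁ q₂ z.1 z.2, ← crtResidue_cast_right q₁ q₂ z.1 z.2, ← hx, hG₁, hG₂]
    simp only
    rw [← eAdd_sq_eq_char, ← eAdd_sq_eq_char, Int.cast_natCast, Int.cast_natCast, Int.cast_natCast]
    have h := eAdd_crt_split h₁ h₂ r₁ r₂ ((x : ℤ) ^ 2)
    push_cast at h ⊢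
    rw [mul_comm ((crtResidue q₁ q₂ r₁ r₂ : ℕ) : ℝ), h, mul_comm ((x : ℝ) ^ 2),
      mul_comm ((x : ℝ) ^ 2)]
  rw [primeSquareSum, ← himg, sum_image hinj, sum_congr rfl key, sum_product]
  simp only
  rw [← sum_mul_sum]
  have hperm : ∀ (q : ℕ) [NeZero q] (G : ZMod q → ℂ) (w : (ZMod q)ˣ),
      ∑ u : (ZMod q)ˣ, G ((u : ZMod q) * w) = ∑ u : (ZMod q)ˣ, G u := fun q _ G w =>
    Fintype.sum_equiv (Equiv.mulRight w) _ _ fun u => by simp
  rw [sum_unitResidues_eq_units (fun x => G₁ (x * (q₂ : ZMod q₁))),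
    sum_unitResidues_eq_units (fun x => G₂ (x * (q₁ : ZMod q₂))),
    ← IsUnit.unit_spec ((ZMod.isUnit_iff_coprime q₂ q₁).2 hco.symm),
    ← IsUnit.unit_spec ((ZMod.isUnit_iff_coprime q₁ q₂).2 hco), hperm, hperm,
    primeSquareSum_eq, primeSquareSum_eq, hG₁, hG₂]

/-- **The descent**: an element `π` with `π² = 0` and `2 π ≠ 0` kills the sum. -/
theorem primeSquareSum_eq_zero {q : ℕ} [NeZero q] {π : ZMod q} (hπ : π * π = 0)
    (h2π : 2 * π ≠ 0) {a : ℤ} (ha : IsUnit (a : ZMod q)) : primeSquareSum q a = 0 := by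
  rw [primeSquareSum_eq]
  obtain ⟨S, hS⟩ : ∃ S, S = ∑ u : (ZMod q)ˣ, ZMod.stdAddChar ((a : ZMod q) * (u : ZMod q) ^ 2) :=
    ⟨_, rfl⟩
  rw [← hS]
  have hshift : ∀ t : ZMod q, S = ∑ u : (ZMod q)ˣ, ZMod.stdAddChar ((a : ZMod q) * (u : ZMod q) ^ 2)
      * ZMod.stdAddChar (t * ((a : ZMod q) * (u : ZMod q) ^ 2 * (2 * π))) := by
    intro t
    obtain ⟨w, hw⟩ : ∃ w : (ZMod q)ˣ, (w : ZMod q) = 1 + t * π :=
      ⟨⟨1 + t * π, 1 - t * π, by linear_combination (-(t ^ 2)) * hπ,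
        by linear_combination (-(t ^ 2)) * hπ⟩, rfl⟩
    rw [hS]
    refine (Fintype.sum_equiv (Equiv.mulRight w) _ _ fun u => ?_).symm
    rw [← AddChar.map_add_eq_mul]
    simp only [Equiv.coe_mulRight, Units.val_mul, hw]
    congr 1
    linear_combination (-((a : ZMod q) * (u : ZMod q) ^ 2 * t ^ 2)) * hπ
  have h0 : (q : ℂ) * S = 0 := by
    rw [show (q : ℂ) * S = ∑ t : ZMod q, S by simp, sum_congr rfl fun t _ => hshift t, sum_comm]
    refine sum_eq_zero fun u _ => ?_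
    rw [← mul_sum, AddChar.sum_mulShift _ (ZMod.isPrimitive_stdAddChar q), if_neg, Nat.cast_zero,
      mul_zero]
    intro h
    exact h2π ((ha.mul (u.isUnit.pow 2)).mul_left_cancel (h.trans (mul_zero _).symm))
  exact (mul_eq_zero.1 h0).resolve_left (Nat.cast_ne_zero.2 (NeZero.ne q))

theorem primeSquareSum_primePow {p l : ℕ} (hp : p.Prime) (hl : 2 ≤ l) (h2 : p ≠ 2 ∨ 4 ≤ l) {a : ℤ}
    (ha : IsUnit (a : ZMod (p ^ l))) : primeSquareSum (p ^ l) a = 0 := by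
  have : NeZero (p ^ l) := ⟨pow_ne_zero _ hp.ne_zero⟩
  obtain ⟨e, he, hlt, he2⟩ : ∃ e, l ≤ 2 * e ∧ e < l ∧ (p = 2 → e + 1 < l) := by
    rcases eq_or_ne p 2 with rfl | hne
    · exact ⟨l - 2, by omega, by omega, fun _ => by omega⟩
    · exact ⟨l - 1, by omega, by omega, fun h => absurd h hne⟩
  refine primeSquareSum_eq_zero (π := ((p ^ e : ℕ) : ZMod (p ^ l))) ?_ ?_ ha
  · rw [← Nat.cast_mul, ← pow_add, ZMod.natCast_eq_zero_iff]
    exact pow_dvd_pow p (by omega)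
  · intro h
    rw [← Nat.cast_ofNat, ← Nat.cast_mul, ZMod.natCast_eq_zero_iff] at h
    rcases eq_or_ne p 2 with rfl | hne
    · rw [← pow_succ'] at h
      have := (Nat.pow_dvd_pow_iff_le_right one_lt_two).1 h
      have := he2 rfl
      omega
    · have h1 := (Nat.Coprime.pow_left l
        ((Nat.coprime_primes hp Nat.prime_two).2 hne)).dvd_of_dvd_mul_left h
      have := (Nat.pow_dvd_pow_iff_le_right hp.one_lt).1 h1
      omega

/-- **Modulo a prime.** -/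
theorem norm_primeSquareSum_prime_le {p : ℕ} (hp : p.Prime) {a : ℤ} (ha : IsUnit (a : ZMod p)) :
    ‖primeSquareSum p a‖ ≤ 5 * √(p : ℝ) := by
  have h := norm_completeSum_prime_le hp (k := 2) one_le_two ha
  have e : completeSum 2 p a = primeSquareSum p a + 1 := by
    have : unitResidues p = (range p).erase 0 := by
      ext r
      rw [unitResidues, mem_filter, mem_range, mem_erase, mem_range, hp.coprime_iff_not_dvd]
      constructor
      · rintro ⟨h1, h2⟩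
        exact ⟨fun h0 => h2 (h0 ▸ dvd_zero p), h1⟩
      · rintro ⟨h1, h2⟩
        exact ⟨h2, fun hd => absurd (Nat.le_of_dvd (by omega) hd) (by omega)⟩
    rw [completeSum, primeSquareSum, this, ← sum_erase_add _ _ (mem_range.2 hp.pos)]
    simp
  have h1 : (1 : ℝ) ≤ √(p : ℝ) := Real.one_le_sqrt.2 (by exact_mod_cast hp.one_le)
  rw [show primeSquareSum p a = completeSum 2 p a - 1 by rw [e]; ring]
  refine (norm_sub_le _ _).trans ?_
  rw [norm_one]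
  push_cast at h
  linarith

end FA.HuaSquares
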