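import Fermat.Agent.HuaSquares.Minor
import Fermat.Agent.HuaSquares.CompleteSum
import Fermat.Agent.WaringAsymptotic.Major

/-!
# The major arcs

At `a/q + β`, `q ≤ (log P) ^ B`, the sum `∑_{n ≤ P} Λ n e (α n²)` is `C_q (a) / φ q` times the sum
of `weight (1/2) m e (β m)` over `m ≤ N`, up to `O (P / (log P) ^ E (1 + |β| N))`: the theorem of
Siegel and Walfisz and partial summation.
-/

set_option autoImplicit false

noncomputable section

namespace FA.HuaSquares

open Finset FA.ThreePrimes ArithmeticFunction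
open scoped Real

theorem sum_coprime_fiber_sq {q : ℕ} [NeZero q] (a : ℤ) (j : ℕ) :
    ∑ n ∈ (Ioc 0 j).filter (fun n => q.Coprime n), (Λ n : ℂ) * eAdd ((a : ℝ) * (n : ℝ) ^ 2 / q) =
      ∑ r ∈ unitResidues q, eAdd ((a : ℝ) * (r : ℝ) ^ 2 / q) *
        ((∑ n ∈ (Ioc 0 j).filter (fun n : ℕ => (n : ZMod q) = (r : ZMod q)), Λ n : ℝ) : ℂ) := by
  rw [← sum_fiberwise_of_maps_to (g := fun n => n % q) (t := unitResidues q) fun n hn => ?_]
  · refine sum_congr rfl fun r hr => ?_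
    rw [unitResidues, mem_filter, mem_range] at hr
    rw [Complex.ofReal_sum, mul_sum]
    refine sum_congr ?_ fun n hn => ?_
    · ext n
      simp only [mem_filter, ZMod.natCast_eq_natCast_iff', Nat.mod_eq_of_lt hr.1]
      constructor
      · rintro ⟨⟨h1, -⟩, h2⟩
        exact ⟨h1, h2⟩
      · rintro ⟨h1, h2⟩
        refine ⟨⟨h1, ?_⟩, h2⟩
        have := hr.2
        rw [← h2, Nat.coprime_comm] at this
        rw [Nat.Coprime, Nat.gcd_rec]
        exact this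
    · rw [eAdd_sq_eq_char, eAdd_sq_eq_char, (mem_filter.1 hn).2, mul_comm]
  · rw [mem_filter] at hn
    rw [unitResidues, mem_filter, mem_range]
    refine ⟨Nat.mod_lt _ (NeZero.pos q), ?_⟩
    have := hn.2
    rw [Nat.Coprime, Nat.gcd_rec] at this
    rw [Nat.Coprime, Nat.gcd_comm]
    exact this

theorem exists_primeSum_sub_le (B E : ℕ) : ∃ C : ℝ, 0 < C ∧
    ∀ (P q : ℕ) [NeZero q] (a : ℤ), 2 ≤ P → (q : ℝ) ≤ Real.log P ^ B → ∀ j ≤ P,
      ‖∑ n ∈ Ioc 0 j, (Λ n : ℂ) * eAdd ((a : ℝ) * (n : ℝ) ^ 2 / q) -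
          primeFactor q a * (j : ℂ)‖ ≤ C * (P / Real.log P ^ E) := by
  obtain ⟨C₀, hC₀, hSW⟩ := SiegelWalfisz.Summary.siegel_walfisz_log ((B : ℝ) + 1)
    ((E + B + 1 : ℕ) : ℝ) (by positivity) (by positivity)
  obtain ⟨K₁, hK₁, hpow⟩ := exists_log_pow_le E
  obtain ⟨K₂, hK₂, hpow'⟩ := exists_log_pow_le (E + B + 2)
  obtain ⟨Q, hQ⟩ : ∃ Q : ℝ, Q = 2 * 2 ^ B := ⟨_, rfl⟩
  have hQ0 : 0 < Q := by rw [hQ]; positivity
  refine ⟨7 * K₁ + 7 * Q ^ E + C₀ * 2 ^ (E + B + 1) + 4 * K₂, by positivity,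
    fun P q _ a hP hq j hj => ?_⟩
  obtain ⟨l, hl⟩ : ∃ l, l = Real.log P := ⟨_, rfl⟩
  rw [← hl] at hq ⊢
  have hP1 : (1 : ℝ) < P := by exact_mod_cast hP
  have hl0 : 0 < l := hl ▸ Real.log_pos hP1
  have hq1 : (1 : ℝ) ≤ q := by exact_mod_cast NeZero.one_le
  obtain ⟨T, hT⟩ : ∃ T : ℝ, T = P / l ^ E := ⟨_, rfl⟩
  rw [← hT]
  have hT0 : 0 ≤ T := by rw [hT]; positivity
  have hnn : 0 ≤ C₀ * 2 ^ (E + B + 1) * T ∧ 0 ≤ K₁ * T ∧ 0 ≤ K₂ * T ∧ 0 ≤ Q ^ E * T :=
    ⟨by positivity, by positivity, by positivity, by rw [hQ]; positivity⟩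
  have htriv : ‖∑ n ∈ Ioc 0 j, (Λ n : ℂ) * eAdd ((a : ℝ) * (n : ℝ) ^ 2 / q) -
      primeFactor q a * (j : ℂ)‖ ≤ 7 * j := by
    refine (norm_sub_le _ _).trans ((add_le_add (b := 6 * (j : ℝ)) (d := (j : ℝ)) ?_ ?_).trans
      (le_of_eq (by ring)))
    · refine (norm_sum_le _ _).trans (le_of_eq_of_le (sum_congr rfl fun n _ => ?_)
        (sum_vonMangoldt_le j))
      rw [norm_mul, norm_eAdd, mul_one, Complex.norm_real, Real.norm_eq_abs,
        abs_of_nonneg vonMangoldt_nonneg]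
    · rw [norm_mul, Complex.norm_natCast]
      exact mul_le_of_le_one_left (Nat.cast_nonneg j) (norm_primeFactor_le_one q a)
  rcases lt_or_ge (j : ℝ) (√(P : ℝ)) with hjs | hjs
  · refine htriv.trans ?_
    have h1 : √(P : ℝ) ≤ K₁ * T := by
      rw [hT, mul_div_assoc', le_div_iff₀ (by positivity)]
      calc √(P : ℝ) * l ^ E ≤ √(P : ℝ) * (K₁ * √(P : ℝ)) :=
            mul_le_mul_of_nonneg_left (hl ▸ hpow P hP1.le) (Real.sqrt_nonneg _)
        _ = K₁ * P := by rw [mul_left_comm, Real.mul_self_sqrt (Nat.cast_nonneg P)]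
    linarith
  have hj1 : (1 : ℝ) < j := by
    refine lt_of_lt_of_le ?_ hjs
    rw [← Real.sqrt_one]
    exact Real.sqrt_lt_sqrt zero_le_one hP1
  have hlj : l ≤ 2 * Real.log j := by
    have := Real.log_le_log (Real.sqrt_pos.2 (by linarith)) hjs
    rw [Real.log_sqrt (Nat.cast_nonneg P), ← hl] at this
    linarith
  have hjP : (j : ℝ) ≤ P := Nat.cast_le.2 hj
  rcases lt_or_ge (Real.log j) (2 ^ B) with hsmall | hbig
  · refine htriv.trans ?_
    have h1 : (P : ℝ) ≤ Q ^ E * T := by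
      rw [hT, mul_div_assoc', le_div_iff₀ (by positivity), mul_comm]
      refine mul_le_mul_of_nonneg_right (pow_le_pow_left₀ hl0.le ?_ E) (Nat.cast_nonneg P)
      have : l ≤ Real.log j + Real.log j := by linarith
      rw [hQ]
      linarith
    linarith
  have hlj1 : 1 ≤ Real.log j := (one_le_pow₀ one_le_two).trans hbig
  have hqj : (q : ℝ) ≤ Real.log j ^ ((B : ℝ) + 1) := by
    rw [Real.rpow_add (by linarith), Real.rpow_natCast, Real.rpow_one]
    calc (q : ℝ) ≤ l ^ B := hq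
      _ ≤ (2 * Real.log j) ^ B := pow_le_pow_left₀ hl0.le hlj B
      _ = Real.log j ^ B * 2 ^ B := by rw [mul_pow]; ring
      _ ≤ _ := mul_le_mul_of_nonneg_left hbig (by positivity)
  have hclass : ∀ r ∈ unitResidues q,
      |(∑ n ∈ (Ioc 0 j).filter (fun n : ℕ => (n : ZMod q) = (r : ZMod q)), Λ n) -
        (j : ℝ) / q.totient| ≤ C₀ * 2 ^ (E + B + 1) * T / l ^ B / l := by
    intro r hr
    rw [unitResidues, mem_filter] at hr
    have h := hSW q (r : ZMod q) ((ZMod.isUnit_iff_coprime r q).2 hr.2.symm) j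
      (by exact_mod_cast (show 1 < j by exact_mod_cast hj1)) hqj
    rw [Nat.floor_natCast, Real.rpow_natCast] at h
    refine h.trans ?_
    rw [hT, mul_div_assoc', div_div, div_div, div_le_div_iff₀ (by positivity) (by positivity)]
    have hp : l ^ E * l ^ B * l ≤ 2 ^ (E + B + 1) * Real.log j ^ (E + B + 1) := by
      rw [← pow_add, ← pow_succ, ← mul_pow]
      exact pow_le_pow_left₀ hl0.le hlj _
    calc C₀ * (j : ℝ) * (l ^ E * (l ^ B * l))
        ≤ C₀ * (P : ℝ) * (2 ^ (E + B + 1) * Real.log j ^ (E + B + 1)) := by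
          rw [← mul_assoc (l ^ E)]
          exact mul_le_mul (mul_le_mul_of_nonneg_left hjP hC₀.le) hp (by positivity) (by positivity)
      _ = _ := by ring
  have hbad : ∑ n ∈ (Ioc 0 j).filter (fun n => ¬ q.Coprime n), Λ n ≤ 4 * K₂ * T := by
    classical
    calc ∑ n ∈ (Ioc 0 j).filter (fun n => ¬ q.Coprime n), Λ n
        ≤ ∑ n ∈ (Icc 1 j).filter (fun n => IsPrimePow n ∧ ¬ n.Coprime q), l := by
          rw [show Icc 1 j = Ioc 0 j from rfl, sum_filter, sum_filter]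
          refine sum_le_sum fun n hn => ?_
          rw [mem_Ioc] at hn
          by_cases hc : q.Coprime n
          · simp [hc, Nat.coprime_comm.1 hc]
          by_cases hp : IsPrimePow n
          · rw [if_pos hc, if_pos ⟨hp, fun h => hc h.symm⟩, hl]
            exact vonMangoldt_le_log.trans (Real.log_le_log (Nat.cast_pos.2 hn.1)
              (Nat.cast_le.2 (hn.2.trans hj)))
          · rw [if_pos hc, vonMangoldt_eq_zero_iff.2 hp, if_neg fun h => hp h.1]
      _ ≤ (q : ℝ) * (2 * l) * l := by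
          rw [sum_const, nsmul_eq_mul]
          refine mul_le_mul_of_nonneg_right ?_ hl0.le
          refine (Nat.cast_le.2 (SiegelWalfisz.card_bad_le q j)).trans ?_
          push_cast
          refine mul_le_mul_of_nonneg_left ?_ (Nat.cast_nonneg q)
          have hj0 : j ≠ 0 := by
            rintro rfl
            norm_num at hj1
          have h3 : ((2 : ℝ) ^ Nat.log 2 j) ≤ P := by
            exact_mod_cast (Nat.pow_log_le_self 2 hj0).trans hj
          have h4 := Real.log_le_log (by positivity) h3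
          rw [Real.log_pow, ← hl] at h4
          have h5 : (0 : ℝ) ≤ Nat.log 2 j := Nat.cast_nonneg _
          nlinarith [Real.log_two_gt_d9]
      _ ≤ 2 * (l ^ B * l ^ 2) := by
          have := mul_le_mul_of_nonneg_right hq (show 0 ≤ l ^ 2 by positivity)
          linarith
      _ ≤ 4 * (K₂ * T) := by
          have h6 : l ^ B * l ^ 2 ≤ K₂ * T := by
            rw [hT, mul_div_assoc', le_div_iff₀ (by positivity), ← pow_add, ← pow_add,
              show B + 2 + E = E + B + 2 by ring]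
            refine (hl ▸ hpow' P hP1.le : l ^ (E + B + 2) ≤ K₂ * √(P : ℝ)).trans
              (mul_le_mul_of_nonneg_left ?_ hK₂.le)
            rw [Real.sqrt_le_left (Nat.cast_nonneg P)]
            nlinarith
          linarith
      _ = _ := by ring
  have hsplit : ∑ n ∈ Ioc 0 j, (Λ n : ℂ) * eAdd ((a : ℝ) * (n : ℝ) ^ 2 / q) -
      primeFactor q a * (j : ℂ) =
      ∑ r ∈ unitResidues q, eAdd ((a : ℝ) * (r : ℝ) ^ 2 / q) *
        (((∑ n ∈ (Ioc 0 j).filter (fun n : ℕ => (n : ZMod q) = (r : ZMod q)), Λ n) -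
          (j : ℝ) / q.totient : ℝ) : ℂ) +
      ∑ n ∈ (Ioc 0 j).filter (fun n => ¬ q.Coprime n),
        (Λ n : ℂ) * eAdd ((a : ℝ) * (n : ℝ) ^ 2 / q) := by
    simp only [Complex.ofReal_sub, mul_sub, sum_sub_distrib]
    rw [← sum_coprime_fiber_sq, ← sum_mul,
      ← sum_filter_add_sum_filter_not (Ioc 0 j) (fun n => q.Coprime n)
        (fun n => (Λ n : ℂ) * eAdd ((a : ℝ) * (n : ℝ) ^ 2 / q)), primeFactor, primeSquareSum]
    push_cast
    ring
  rw [hsplit]
  refine (norm_add_le _ _).trans ?_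
  have hA : ‖∑ r ∈ unitResidues q, eAdd ((a : ℝ) * (r : ℝ) ^ 2 / q) *
        (((∑ n ∈ (Ioc 0 j).filter (fun n : ℕ => (n : ZMod q) = (r : ZMod q)), Λ n) -
          (j : ℝ) / q.totient : ℝ) : ℂ)‖ ≤ C₀ * 2 ^ (E + B + 1) * T := by
    refine (norm_sum_le _ _).trans ((sum_le_card_nsmul _ _
      (C₀ * 2 ^ (E + B + 1) * T / l ^ B / l) fun r hr => ?_).trans ?_)
    · rw [norm_mul, norm_eAdd, one_mul, Complex.norm_real]
      exact hclass r hr
    · rw [card_unitResidues, nsmul_eq_mul]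
      have hl1 : 1 ≤ l := by
        rcases Nat.eq_zero_or_pos B with rfl | hB
        · have h3 : Real.log j ≤ l := hl ▸ Real.log_le_log (by linarith) hjP
          linarith
        · by_contra h
          have := pow_lt_one₀ hl0.le (not_le.1 h) hB.ne'
          linarith
      have hφ : (q.totient : ℝ) ≤ l ^ B := (Nat.cast_le.2 (Nat.totient_le q)).trans hq
      calc (q.totient : ℝ) * (C₀ * 2 ^ (E + B + 1) * T / l ^ B / l)
          ≤ l ^ B * (C₀ * 2 ^ (E + B + 1) * T / l ^ B / l) :=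
            mul_le_mul_of_nonneg_right hφ (by positivity)
        _ = C₀ * 2 ^ (E + B + 1) * T / l := by field_simp
        _ ≤ _ := div_le_self hnn.1 hl1
  have hB' : ‖∑ n ∈ (Ioc 0 j).filter (fun n => ¬ q.Coprime n),
      (Λ n : ℂ) * eAdd ((a : ℝ) * (n : ℝ) ^ 2 / q)‖ ≤ 4 * K₂ * T := by
    refine (norm_sum_le _ _).trans (le_of_eq_of_le (sum_congr rfl fun n _ => ?_) hbad)
    rw [norm_mul, norm_eAdd, mul_one, Complex.norm_real, Real.norm_eq_abs,
      abs_of_nonneg vonMangoldt_nonneg]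
  linarith

/-- **The approximation on a major arc.** -/
theorem exists_square_major (B E : ℕ) : ∃ C : ℝ, 0 < C ∧
    ∀ (N P q : ℕ) [NeZero q] (a : ℤ) (β : ℝ), 2 ≤ P → P ^ 2 ≤ N → N < (P + 1) ^ 2 →
      (q : ℝ) ≤ Real.log P ^ B →
        ‖squareTwist ((a : ℝ) / q + β) Λ P -
            primeFactor q a * WaringAsymptotic.weightSum (1 / 2) N β‖ ≤
          (C * (P / Real.log P ^ E) + 2) * (1 + 2 * π * |β| * N) := by
  obtain ⟨C, hC, h⟩ := exists_primeSum_sub_le B E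
  refine ⟨C, hC, fun N P q _ a β hP hPN hNP hq => ?_⟩
  obtain ⟨g, hg⟩ : ∃ g : ℕ → ℂ,
      g = fun x : ℕ => (Λ x : ℂ) * eAdd ((a : ℝ) * (x : ℝ) ^ 2 / q) := ⟨_, rfl⟩
  obtain ⟨u, hu⟩ : ∃ u : ℕ → ℂ, u = fun m => ∑ x ∈ (Ioc 0 P).filter (fun x => x ^ 2 = m), g x :=
    ⟨_, rfl⟩
  obtain ⟨w, hw⟩ : ∃ w : ℕ → ℂ,
      w = fun m => u m - primeFactor q a * (WaringAsymptotic.weight (1 / 2) m : ℂ) := ⟨_, rfl⟩
  have hsum : ∑ m ∈ Ioc 0 N, w m * eAdd (m * β) = squareTwist ((a : ℝ) / q + β) Λ P -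
      primeFactor q a * WaringAsymptotic.weightSum (1 / 2) N β := by
    simp only [hw, sub_mul, mul_assoc, sum_sub_distrib, WaringAsymptotic.weightSum, mul_sum]
    congr 1
    rw [squareTwist,
      ← sum_fiberwise_of_maps_to (s := Ioc 0 P) (g := fun x : ℕ => x ^ 2) (t := Ioc 0 N)
        fun x hx => ?_]
    · refine sum_congr rfl fun m _ => ?_
      rw [hu, sum_mul]
      refine sum_congr rfl fun x hx => ?_
      rw [← (mem_filter.1 hx).2, hg]
      simp only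
      rw [mul_assoc, ← eAdd_add]
      push_cast
      ring_nf
    · rw [mem_Ioc] at hx ⊢
      exact ⟨pow_pos hx.1 2, (Nat.pow_le_pow_left hx.2 2).trans hPN⟩
  rw [← hsum]
  refine norm_sum_mul_eAdd_le w β N fun j hj => ?_
  obtain ⟨X, hX⟩ : ∃ X, X = Nat.sqrt j := ⟨_, rfl⟩
  have hXj : X ^ 2 ≤ j := hX ▸ Nat.sqrt_le' j
  have hjX : j < (X + 1) ^ 2 := hX ▸ Nat.lt_succ_sqrt' j
  have hXP : X ≤ P := by
    by_contra h'
    have := Nat.pow_le_pow_left (show P + 1 ≤ X by omega) 2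
    omega
  have hu' : ∑ m ∈ Ioc 0 j, u m = ∑ x ∈ Ioc 0 X, g x := by
    rw [hu, ← sum_biUnion fun m _ m' _ hne => disjoint_left.2 fun x hx hx' =>
      hne ((mem_filter.1 hx).2.symm.trans (mem_filter.1 hx').2)]
    refine sum_congr (ext fun x => ?_) fun _ _ => rfl
    simp only [mem_biUnion, mem_filter, mem_Ioc]
    constructor
    · rintro ⟨m, hm, hx, rfl⟩
      refine ⟨hx.1, ?_⟩
      by_contra h'
      exact absurd hm.2 (not_le.2 (hjX.trans_le (Nat.pow_le_pow_left (by omega) 2)))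
    · intro hx
      exact ⟨x ^ 2, ⟨pow_pos hx.1 2, (Nat.pow_le_pow_left hx.2 2).trans hXj⟩,
        ⟨hx.1, hx.2.trans hXP⟩, rfl⟩
  have hXc : |(X : ℝ) - (∑ m ∈ Ioc 0 j, WaringAsymptotic.weight (1 / 2) m : ℝ)| ≤ 2 := by
    obtain ⟨h1, h2⟩ := WaringAsymptotic.abs_sum_weight_sub_le (c := (1 / 2 : ℝ)) (by norm_num)
      (by norm_num) j
    rw [← Real.sqrt_eq_rpow] at h1 h2
    have h3 : (X : ℝ) ≤ √(j : ℝ) := Real.le_sqrt_of_sq_le (by exact_mod_cast hXj)
    have h4 : √(j : ℝ) ≤ (X : ℝ) + 1 := by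
      rw [Real.sqrt_le_left (by positivity)]
      exact_mod_cast hjX.le
    rw [abs_le]
    constructor <;> linarith
  simp only [hw, sum_sub_distrib, ← mul_sum, ← Complex.ofReal_sum, hu']
  rw [show ∑ x ∈ Ioc 0 X, g x -
      primeFactor q a * ((∑ m ∈ Ioc 0 j, WaringAsymptotic.weight (1 / 2) m : ℝ) : ℂ) =
    (∑ x ∈ Ioc 0 X, g x - primeFactor q a * (X : ℂ)) + primeFactor q a *
      (((X : ℝ) - ∑ m ∈ Ioc 0 j, WaringAsymptotic.weight (1 / 2) m : ℝ) : ℂ) by push_cast; ring]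
  refine (norm_add_le _ _).trans (add_le_add (hg ▸ h P q a hP hq X hXP) ?_)
  rw [norm_mul, Complex.norm_real, Real.norm_eq_abs]
  exact (mul_le_mul (norm_primeFactor_le_one q a) hXc (abs_nonneg _) zero_le_one).trans
    (le_of_eq (one_mul _))

end FA.HuaSquares
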