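import Fermat.Agent.HuaSquares.CompleteSum
import Fermat.Agent.WaringAsymptotic.Positivity

/-!
# The singular series for five squares of primes

`𝔖 (N) = ∑ A_q (N)` converges absolutely and uniformly in `N`, and is bounded below for
`N ≡ 5 (mod 24)`: the local factors are `8` at `2`, `3` at `3`, and positive elsewhere, every
residue modulo `p ≥ 5` being a sum of five nonzero squares.
-/

set_option autoImplicit false

noncomputable section

namespace FA.HuaSquares

open Finset FA.ThreePrimes Filter Topology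

/-- The summand of `A_q (N)`. -/
def localSummand (N q r : ℕ) : ℂ :=
  primeFactor q r ^ 5 * eAdd (-((N : ℝ) * r / q))

/-- `A_q (N)`. -/
def singularTerm (N q : ℕ) : ℂ := ∑ r ∈ unitResidues q, localSummand N q r

/-- The sum of the absolute values in `A_q (N)`. -/
def absTerm (q : ℕ) : ℝ := ∑ r ∈ unitResidues q, ‖primeFactor q r‖ ^ 5

/-- The singular series. -/
def singularSeries (N : ℕ) : ℝ := (∑' q, singularTerm N q).re

theorem absTerm_nonneg (q : ℕ) : 0 ≤ absTerm q := sum_nonneg fun _ _ => by positivity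

theorem norm_singularTerm_le (N q : ℕ) : ‖singularTerm N q‖ ≤ absTerm q := by
  refine (norm_sum_le _ _).trans (le_of_eq (sum_congr rfl fun r _ => ?_))
  rw [localSummand, norm_mul, norm_pow, norm_eAdd, mul_one]

theorem singularTerm_zero (N : ℕ) : singularTerm N 0 = 0 := by simp [singularTerm, unitResidues]

theorem singularTerm_one (N : ℕ) : singularTerm N 1 = 1 := by
  simp [singularTerm, localSummand, unitResidues, primeFactor, primeSquareSum,
    show ∀ x : ℝ, x * 0 = 0 from mul_zero]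

theorem absTerm_one : absTerm 1 = 1 := by
  simp [absTerm, unitResidues, primeFactor, primeSquareSum,
    show ∀ x : ℝ, x * 0 = 0 from mul_zero]

theorem primeFactor_crt {q₁ q₂ : ℕ} (hco : q₁.Coprime q₂) (h₁ : 0 < q₁) (h₂ : 0 < q₂)
    (r₁ r₂ : ℕ) : primeFactor (q₁ * q₂) (WaringAsymptotic.crtResidue q₁ q₂ r₁ r₂ : ℕ) =
      primeFactor q₁ r₁ * primeFactor q₂ r₂ := by
  rw [primeFactor, primeFactor, primeFactor, primeSquareSum_crt hco h₁ h₂, Nat.totient_mul hco,
    Nat.cast_mul, mul_div_mul_comm]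

theorem absTerm_mul {m n : ℕ} (h : m.Coprime n) : absTerm (m * n) = absTerm m * absTerm n := by
  classical
  rcases Nat.eq_zero_or_pos m with rfl | hm
  · simp [absTerm, unitResidues]
  rcases Nat.eq_zero_or_pos n with rfl | hn
  · simp [absTerm, unitResidues]
  obtain ⟨hinj, himg⟩ := crtResidue_bijOn h
  rw [absTerm, absTerm, absTerm, ← himg, sum_image hinj, sum_mul_sum, ← sum_product']
  refine sum_congr rfl fun z _ => ?_
  rw [primeFactor_crt h hm hn, norm_mul, mul_pow]

theorem singularTerm_mul (N : ℕ) {m n : ℕ} (h : m.Coprime n) :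
    singularTerm N (m * n) = singularTerm N m * singularTerm N n := by
  classical
  rcases Nat.eq_zero_or_pos m with rfl | hm
  · simp [singularTerm, unitResidues]
  rcases Nat.eq_zero_or_pos n with rfl | hn
  · simp [singularTerm, unitResidues]
  obtain ⟨hinj, himg⟩ := crtResidue_bijOn h
  rw [singularTerm, singularTerm, singularTerm, ← himg, sum_image hinj, sum_mul_sum, ← sum_product']
  refine sum_congr rfl fun z _ => ?_
  have e := eAdd_crt_split hm hn z.1 z.2 (-(N : ℤ))
  push_cast at e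
  rw [localSummand, localSummand, localSummand, primeFactor_crt h hm hn, mul_pow,
    show -((N : ℝ) * (WaringAsymptotic.crtResidue m n z.1 z.2 : ℕ) / (m * n : ℕ)) =
      -(N : ℝ) * (WaringAsymptotic.crtResidue m n z.1 z.2 : ℕ) / ((m : ℝ) * n) by push_cast; ring,
    e, show -((N : ℝ) * z.1 / m) = -(N : ℝ) * z.1 / m by ring,
    show -((N : ℝ) * z.2 / n) = -(N : ℝ) * z.2 / n by ring]
  ring

/-- Only `p` itself, and `4` and `8`, contribute. -/
theorem absTerm_primePow_eq_zero {p l : ℕ} (hp : p.Prime) (hl : 2 ≤ l) (h2 : p ≠ 2 ∨ 4 ≤ l) :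
    absTerm (p ^ l) = 0 := by
  refine sum_eq_zero fun r hr => ?_
  rw [unitResidues, mem_filter] at hr
  rw [primeFactor, primeSquareSum_primePow hp hl h2 (a := (r : ℤ))
    (by rw [Int.cast_natCast]; exact (ZMod.isUnit_iff_coprime r _).2 hr.2.symm)]
  simp

theorem singularTerm_primePow_eq_zero (N : ℕ) {p l : ℕ} (hp : p.Prime) (hl : 2 ≤ l)
    (h2 : p ≠ 2 ∨ 4 ≤ l) : singularTerm N (p ^ l) = 0 :=
  norm_eq_zero.1 (le_antisymm ((norm_singularTerm_le N _).trans
    (absTerm_primePow_eq_zero hp hl h2).le) (norm_nonneg _))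

theorem absTerm_le (q : ℕ) : absTerm q ≤ q := by
  refine (sum_le_card_nsmul (unitResidues q) (fun r => ‖primeFactor q r‖ ^ 5) 1
    fun r _ => pow_le_one₀ (norm_nonneg _) (norm_primeFactor_le_one q r)).trans ?_
  rw [card_unitResidues, nsmul_eq_mul, mul_one]
  exact Nat.cast_le.2 (Nat.totient_le q)

theorem absTerm_prime_le {p : ℕ} (hp : p.Prime) :
    absTerm p ≤ 100000 * (p : ℝ) ^ (-(3 / 2) : ℝ) := by
  have hp2 : (2 : ℝ) ≤ p := by exact_mod_cast hp.two_le
  have hs : (0 : ℝ) < √(p : ℝ) := Real.sqrt_pos.2 (by linarith)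
  refine (sum_le_card_nsmul _ _ ((10 / √(p : ℝ)) ^ 5) fun r hr => ?_).trans ?_
  · rw [unitResidues, mem_filter] at hr
    refine pow_le_pow_left₀ (norm_nonneg _) ?_ 5
    have h := norm_primeSquareSum_prime_le hp (a := (r : ℤ))
      (by rw [Int.cast_natCast]; exact (ZMod.isUnit_iff_coprime r _).2 hr.2.symm)
    rw [primeFactor, norm_div, Complex.norm_natCast, Nat.totient_prime hp,
      Nat.cast_sub hp.one_le, Nat.cast_one, div_le_div_iff₀ (by linarith) hs]
    have hss := Real.mul_self_sqrt (show (0 : ℝ) ≤ p by linarith)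
    have h1 := mul_le_mul_of_nonneg_right h hs.le
    rw [mul_assoc, hss] at h1
    linarith
  · rw [nsmul_eq_mul, card_unitResidues, Nat.totient_prime hp]
    have e : (√(p : ℝ)) ^ 5 = (p : ℝ) ^ (5 / 2 : ℝ) := by
      rw [Real.sqrt_eq_rpow, ← Real.rpow_natCast, ← Real.rpow_mul (by linarith)]
      norm_num
    rw [div_pow, e, show (-(3 / 2) : ℝ) = 1 - 5 / 2 by norm_num, Real.rpow_sub (by linarith),
      Real.rpow_one, mul_div_assoc', mul_div_assoc']
    refine div_le_div_of_nonneg_right ?_ (by positivity)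
    rw [show (10 : ℝ) ^ 5 = 100000 by norm_num, mul_comm]
    exact mul_le_mul_of_nonneg_left (Nat.cast_le.2 (Nat.sub_le p 1)) (by norm_num)

theorem tsum_absTerm_primePow {p : ℕ} (hp : p.Prime) :
    Summable (fun l => ‖absTerm (p ^ l)‖) ∧
      ∑' l, absTerm (p ^ l) ≤ 1 + 300000 * (p : ℝ) ^ (-(3 / 2) : ℝ) := by
  have h0 : ∀ l ∉ range 4, absTerm (p ^ l) = 0 := fun l hl => by
    rw [mem_range] at hl
    exact absTerm_primePow_eq_zero hp (by omega) (Or.inr (by omega))
  refine ⟨summable_of_ne_finset_zero (s := range 4) fun l hl => by rw [h0 l hl, norm_zero], ?_⟩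
  rw [tsum_eq_sum h0]
  simp only [sum_range_succ, range_zero, sum_empty, zero_add, pow_zero, pow_one, absTerm_one]
  have h1 := absTerm_prime_le hp
  rcases eq_or_ne p 2 with rfl | hne
  · have a1 := absTerm_le (2 ^ 1)
    have a2 := absTerm_le (2 ^ 2)
    have a3 := absTerm_le (2 ^ 3)
    norm_num at a1 a2 a3 ⊢
    have : (1 / 4 : ℝ) ≤ (2 : ℝ) ^ (-(3 / 2) : ℝ) := by
      rw [show (1 / 4 : ℝ) = (2 : ℝ) ^ (-2 : ℝ) by norm_num]
      exact Real.rpow_le_rpow_of_exponent_le one_le_two (by norm_num)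
    linarith
  · rw [absTerm_primePow_eq_zero hp le_rfl (Or.inl hne),
      absTerm_primePow_eq_zero hp (show 2 ≤ 3 by norm_num) (Or.inl hne)]
    have : 0 ≤ (p : ℝ) ^ (-(3 / 2) : ℝ) := by positivity
    linarith

theorem summable_absTerm : Summable absTerm := by
  obtain ⟨Z, hZ⟩ : ∃ Z : ℝ, Z = ∑' p : ℕ, 300000 * (p : ℝ) ^ (-(3 / 2) : ℝ) := ⟨_, rfl⟩
  have hb : Summable fun p : ℕ => 300000 * (p : ℝ) ^ (-(3 / 2) : ℝ) :=
    (Real.summable_nat_rpow.2 (by norm_num)).mul_left _
  refine summable_of_sum_range_le (c := Real.exp Z) absTerm_nonneg fun n => ?_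
  obtain ⟨hs, hsum⟩ := EulerProduct.summable_and_hasSum_factoredNumbers_prod_filter_prime_tsum
    absTerm_one (fun h => absTerm_mul h) (fun hp => (tsum_absTerm_primePow hp).1) (range n)
  have h1 : ∑ q ∈ range n, absTerm q ≤ ∏ p ∈ range n with p.Prime, ∑' l, absTerm (p ^ l) := by
    rw [← hsum.tsum_eq]
    classical
    calc ∑ q ∈ range n, absTerm q
        = ∑ q ∈ (range n).filter (fun q => q ∈ Nat.factoredNumbers (range n)), absTerm q := by
          refine (sum_filter_of_ne fun q hq hne => ?_).symm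
          have hq0 : q ≠ 0 := fun h => hne (by simp [h, absTerm, unitResidues])
          rw [mem_range] at hq
          exact Nat.mem_factoredNumbers.2 ⟨hq0, fun p hp => mem_range.2
            (lt_of_le_of_lt (Nat.le_of_mem_primeFactorsList hp) hq)⟩
      _ = ∑ q ∈ (range n).subtype (fun q => q ∈ Nat.factoredNumbers (range n)),
            absTerm q := (sum_subtype_eq_sum_filter _).symm
      _ ≤ _ := Summable.sum_le_tsum _ (fun i _ => absTerm_nonneg _) hsum.summable
  refine h1.trans ?_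
  calc ∏ p ∈ range n with p.Prime, ∑' l, absTerm (p ^ l)
      ≤ ∏ p ∈ range n with p.Prime, Real.exp (300000 * (p : ℝ) ^ (-(3 / 2) : ℝ)) :=
        prod_le_prod (fun p _ => tsum_nonneg fun l => absTerm_nonneg _) fun p hp =>
          ((tsum_absTerm_primePow (mem_filter.1 hp).2).2.trans
            (by linarith [Real.add_one_le_exp (300000 * (p : ℝ) ^ (-(3 / 2) : ℝ))]))
    _ = Real.exp (∑ p ∈ range n with p.Prime, 300000 * (p : ℝ) ^ (-(3 / 2) : ℝ)) :=
        (Real.exp_sum _ _).symm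
    _ ≤ _ := Real.exp_le_exp.2 (hZ ▸ hb.sum_le_tsum _ fun p _ => by positivity)

theorem summable_singularTerm (N : ℕ) : Summable fun q => ‖singularTerm N q‖ :=
  Summable.of_nonneg_of_le (fun _ => norm_nonneg _) (norm_singularTerm_le N) summable_absTerm

/-- **The tail**, uniform in `N`. -/
theorem exists_singular_tail {ε : ℝ} (hε : 0 < ε) : ∃ Q₀ : ℕ, ∀ Q, Q₀ ≤ Q → ∀ N,
    ‖∑ q ∈ Icc 1 Q, singularTerm N q - ∑' q, singularTerm N q‖ ≤ ε := by
  obtain ⟨Q₀, hQ₀⟩ := eventually_atTop.1 ((tendsto_sum_nat_add absTerm).eventually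
    (eventually_le_nhds hε))
  refine ⟨Q₀, fun Q hQ N => ?_⟩
  have hs := (summable_singularTerm N).of_norm
  have e : ∑ q ∈ Icc 1 Q, singularTerm N q = ∑ q ∈ range (Q + 1), singularTerm N q := by
    refine sum_subset (fun q hq => mem_range.2 (by rw [mem_Icc] at hq; omega)) fun q hq hq' => ?_
    rw [mem_range] at hq
    rw [mem_Icc] at hq'
    rw [show q = 0 by omega, singularTerm_zero]
  rw [e, ← hs.sum_add_tsum_nat_add (Q + 1), sub_add_cancel_left, norm_neg]
  exact (tsum_of_norm_bounded ((summable_nat_add_iff (Q + 1)).2 summable_absTerm).hasSum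
    fun i => norm_singularTerm_le N _).trans (hQ₀ (Q + 1) (by omega))

/-! ### Positivity -/

/-- Modulo `2`, `3`, `4` and `8` the squares of units are `1`. -/
theorem singularTerm_of_sq_eq_one {q : ℕ} [NeZero q]
    (h : ∀ u : (ZMod q)ˣ, (u : ZMod q) ^ 2 = 1) {N : ℕ} (hN : (q : ℤ) ∣ 5 - N) :
    singularTerm N q = (q.totient : ℂ) := by
  have hC : ∀ a : ℤ, primeFactor q a = eAdd ((a : ℝ) / q) := fun a => by
    have e := primeSquareSum_eq q a
    simp only [h, mul_one, sum_const, card_univ, ZMod.card_units_eq_totient, nsmul_eq_mul,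
      ← WaringAsymptotic.eAdd_div_eq_char] at e
    rw [primeFactor, e, mul_div_cancel_left₀]
    exact Nat.cast_ne_zero.2 (Nat.totient_pos.2 (NeZero.pos q)).ne'
  rw [singularTerm, sum_congr rfl fun r _ => show localSummand N q r = 1 by
    obtain ⟨m, hm⟩ := hN
    rw [localSummand, hC, ← eAdd_nat_mul, ← eAdd_add]
    have hq : (q : ℝ) ≠ 0 := Nat.cast_ne_zero.2 (NeZero.ne q)
    have hm' : (5 : ℝ) - N = q * m := by exact_mod_cast hm
    rw [← eAdd_intCast (r * m)]
    congr 1
    push_cast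
    field_simp
    linear_combination (r : ℝ) * hm']
  simp [card_unitResidues]

theorem exists_five_squares_mod_five (n : ZMod 5) :
    ∃ x : Fin 5 → ZMod 5, (∀ i, x i ≠ 0) ∧ ∑ i, x i ^ 2 = n := by
  have h : ∀ m : ZMod 5, ∃ k : Fin 5, m = 3 * (k.val : ZMod 5) := by decide
  obtain ⟨k, rfl⟩ := h n
  refine ⟨fun i => if i.val < k.val then 2 else 1, ?_, ?_⟩ <;> clear h <;> revert k <;> decide

theorem exists_five_squares {p : ℕ} (hp : p.Prime) (h5 : 5 ≤ p) (n : ZMod p) :
    ∃ x : Fin 5 → ZMod p, (∀ i, x i ≠ 0) ∧ ∑ i, x i ^ 2 = n := by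
  have : Fact p.Prime := ⟨hp⟩
  rcases eq_or_ne p 5 with rfl | hne
  · exact exists_five_squares_mod_five n
  have hsmall : ∀ m : ℕ, 0 < m → m < p → ((m : ℕ) : ZMod p) ≠ 0 := fun m h1 h2 h => by
    rw [ZMod.natCast_eq_zero_iff] at h
    exact absurd (Nat.le_of_dvd h1 h) (by omega)
  have h7 : 7 ≤ p := by
    by_contra h
    have h6 : p = 6 := by omega
    exact absurd (h6 ▸ hp) (by decide)
  have n2 : (2 : ZMod p) ≠ 0 := by exact_mod_cast hsmall 2 (by norm_num) (by omega)
  have n3 : (3 : ZMod p) ≠ 0 := by exact_mod_cast hsmall 3 (by norm_num) (by omega)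
  have n4 : (4 : ZMod p) ≠ 0 := by exact_mod_cast hsmall 4 (by norm_num) (by omega)
  have n5 : (5 : ZMod p) ≠ 0 := by exact_mod_cast hsmall 5 (by norm_num) (by omega)
  obtain ⟨u, hu, hm⟩ : ∃ u : ZMod p, u ≠ 0 ∧ n - (1 + 1 + u ^ 2) ≠ 0 := by
    by_cases h : n - (1 + 1 + 1 ^ 2) = 0
    · exact ⟨2, n2, fun h' => n3 (by linear_combination h - h')⟩
    · exact ⟨1, one_ne_zero, h⟩
  obtain ⟨x, y, hxy⟩ := ZMod.sq_add_sq p (n - (1 + 1 + u ^ 2))
  obtain ⟨v, w, hv, hw, hvw⟩ : ∃ v w : ZMod p, v ≠ 0 ∧ w ≠ 0 ∧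
      v ^ 2 + w ^ 2 = n - (1 + 1 + u ^ 2) := by
    by_cases hx : x = 0
    · have hy : y ≠ 0 := fun h => hm (by rw [← hxy, hx, h]; ring)
      refine ⟨3 / 5 * y, 4 / 5 * y, mul_ne_zero (div_ne_zero n3 n5) hy,
        mul_ne_zero (div_ne_zero n4 n5) hy, ?_⟩
      rw [← hxy, hx]
      field_simp
      ring
    by_cases hy : y = 0
    · refine ⟨3 / 5 * x, 4 / 5 * x, mul_ne_zero (div_ne_zero n3 n5) hx,
        mul_ne_zero (div_ne_zero n4 n5) hx, ?_⟩
      rw [← hxy, hy]
      field_simp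
      ring
    exact ⟨x, y, hx, hy, hxy⟩
  refine ⟨![1, 1, u, v, w], fun i => by fin_cases i <;> simp [hu, hv, hw], ?_⟩
  simp [Fin.sum_univ_five]
  linear_combination hvw

/-- `1 + A_p (N) > 0`, with a bound independent of `N`. -/
theorem singularTerm_prime {p : ℕ} (hp : p.Prime) (h5 : 5 ≤ p) (N : ℕ) :
    ∃ v : ℝ, (1 + singularTerm N p : ℂ) = v ∧ (p : ℝ) / (p.totient : ℝ) ^ 5 ≤ v := by
  have : NeZero p := ⟨hp.ne_zero⟩
  obtain ⟨T, hT⟩ : ∃ T : ℕ, T = ((Fintype.piFinset fun _ : Fin 5 => unitResidues p).filter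
      fun z => (p : ℤ) ∣ ((∑ i, z i ^ 2 : ℕ) : ℤ) - N).card := ⟨_, rfl⟩
  have hφ : (p.totient : ℂ) ≠ 0 := Nat.cast_ne_zero.2 (Nat.totient_pos.2 hp.pos).ne'
  have hins : range p = insert 0 (unitResidues p) := by
    ext r
    rw [unitResidues, mem_insert, mem_filter, mem_range, hp.coprime_iff_not_dvd]
    constructor
    · intro h
      rcases Nat.eq_zero_or_pos r with h0 | h0
      · exact Or.inl h0
      · exact Or.inr ⟨h, fun hd => absurd (Nat.le_of_dvd h0 hd) (by omega)⟩
    · rintro (rfl | h)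
      · exact hp.pos
      · exact h.1
  have htot : ∑ r ∈ range p, localSummand N p r = (p : ℂ) * T / (p.totient : ℂ) ^ 5 := by
    have e : ∀ r ∈ range p, localSummand N p r =
        (∑ z ∈ Fintype.piFinset (fun _ : Fin 5 => unitResidues p),
          eAdd (((((∑ i, z i ^ 2 : ℕ) : ℤ) - N : ℤ) : ℝ) * r / p)) / (p.totient : ℂ) ^ 5 := by
      intro r _
      rw [localSummand, primeFactor, div_pow, div_mul_eq_mul_div]
      congr 1
      have h := WaringAsymptotic.sum_eAdd_pow (unitResidues p) (fun _ => 1) (fun x => x ^ 2) 5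
        ((r : ℝ) / p)
      simp only [one_mul, prod_const_one] at h
      rw [primeSquareSum, show ∑ x ∈ unitResidues p, eAdd (((r : ℕ) : ℤ) * (x : ℝ) ^ 2 / p) =
        ∑ i ∈ unitResidues p, eAdd ((i ^ 2 : ℕ) * ((r : ℝ) / p)) from sum_congr rfl fun x _ => by
          push_cast; ring_nf, h, sum_mul]
      refine sum_congr rfl fun z _ => ?_
      rw [← eAdd_add]
      push_cast
      ring_nf
    rw [sum_congr rfl e, ← sum_div]
    congr 1
    rw [sum_comm, hT, card_filter, Nat.cast_sum, mul_sum]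
    refine sum_congr rfl fun z _ => ?_
    rw [sum_eAdd_grid hp.pos]
    split_ifs <;> simp
  have h0 : localSummand N p 0 = 1 := by
    rw [localSummand, primeFactor, primeSquareSum]
    simp [card_unitResidues, hφ]
  have h1 : (1 + singularTerm N p : ℂ) = (((p : ℝ) * T / (p.totient : ℝ) ^ 5 : ℝ) : ℂ) := by
    rw [hins, sum_insert (by
      rw [unitResidues, mem_filter, hp.coprime_iff_not_dvd]
      simp), h0] at htot
    rw [singularTerm, htot]
    push_cast
    rfl
  refine ⟨_, h1, div_le_div_of_nonneg_right (le_mul_of_one_le_right (Nat.cast_nonneg p) ?_)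
    (by positivity)⟩
  rw [hT, Nat.one_le_cast, Finset.one_le_card]
  obtain ⟨x, hx0, hx⟩ := exists_five_squares hp h5 (N : ZMod p)
  refine ⟨fun i => (x i).val, mem_filter.2 ⟨Fintype.mem_piFinset.2 fun i => ?_, ?_⟩⟩
  · rw [unitResidues, mem_filter, mem_range, hp.coprime_iff_not_dvd]
    refine ⟨ZMod.val_lt _, fun hd => hx0 i ?_⟩
    rw [← ZMod.natCast_zmod_val (x i), ZMod.natCast_eq_zero_iff]
    exact hd
  · rw [← ZMod.intCast_zmod_eq_zero_iff_dvd]
    push_cast
    simp [hx]

/-- The local factor. -/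
def localDensity (N p : ℕ) : ℂ := ∑' l, singularTerm N (p ^ l)

theorem localDensity_eq (N : ℕ) {p : ℕ} (hp : p.Prime) :
    localDensity N p = ∑ l ∈ range 4, singularTerm N (p ^ l) :=
  tsum_eq_sum fun l hl => by
    rw [mem_range] at hl
    exact singularTerm_primePow_eq_zero N hp (by omega) (Or.inr (by omega))

theorem localDensity_small {N : ℕ} (hN : N % 24 = 5) :
    localDensity N 2 = 8 ∧ localDensity N 3 = 3 := by
  have d8 : (8 : ℤ) ∣ 5 - N := by omega
  have d3 : (3 : ℤ) ∣ 5 - N := by omega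
  rw [localDensity_eq N Nat.prime_two, localDensity_eq N Nat.prime_three]
  simp only [sum_range_succ, range_zero, sum_empty, zero_add, singularTerm_one, pow_zero]
  rw [singularTerm_primePow_eq_zero N Nat.prime_three le_rfl (Or.inl (by norm_num)),
    singularTerm_primePow_eq_zero N Nat.prime_three (show 2 ≤ 3 by norm_num) (Or.inl (by norm_num))]
  norm_num only [pow_one]
  rw [singularTerm_of_sq_eq_one (q := 2) (by decide) (by omega),
    singularTerm_of_sq_eq_one (q := 4) (by decide) (by omega),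
    singularTerm_of_sq_eq_one (q := 8) (by decide) d8,
    singularTerm_of_sq_eq_one (q := 3) (by decide) d3]
  have t4 : Nat.totient 4 = 2 := by decide
  have t8 : Nat.totient 8 = 4 := by decide
  rw [Nat.totient_two, t4, t8, Nat.totient_prime Nat.prime_three]
  norm_num

/-- The local factors at `N ≡ 5 (mod 24)`. -/
theorem localDensity_spec {N : ℕ} (hN : N % 24 = 5) {p : ℕ} (hp : p.Prime) :
    ∃ v : ℝ, localDensity N p = v ∧ (p : ℝ) / (p.totient : ℝ) ^ 5 ≤ v ∧
      1 - 300000 * (p : ℝ) ^ (-(3 / 2) : ℝ) ≤ v := by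
  obtain ⟨h2, h3⟩ := localDensity_small hN
  have hnn : 0 ≤ 300000 * (p : ℝ) ^ (-(3 / 2) : ℝ) := by positivity
  rcases eq_or_ne p 2 with rfl | hne2
  · exact ⟨8, by rw [h2]; norm_num, by norm_num [Nat.totient_two], by linarith⟩
  rcases eq_or_ne p 3 with rfl | hne3
  · exact ⟨3, by rw [h3]; norm_num, by norm_num [Nat.totient_prime Nat.prime_three], by linarith⟩
  have h5 : 5 ≤ p := by
    by_contra h
    have := hp.two_le
    have h4 : p = 4 := by omega
    exact absurd (h4 ▸ hp) (by decide)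
  obtain ⟨v, hv, hle⟩ := singularTerm_prime hp h5 N
  have e : localDensity N p = 1 + singularTerm N p := by
    rw [localDensity_eq N hp]
    simp only [sum_range_succ, range_zero, sum_empty, zero_add, singularTerm_one, pow_zero, pow_one]
    rw [singularTerm_primePow_eq_zero N hp le_rfl (Or.inl hne2),
      singularTerm_primePow_eq_zero N hp (show 2 ≤ 3 by norm_num) (Or.inl hne2)]
    ring
  refine ⟨v, e.trans hv, hle, ?_⟩
  have h1 : v = 1 + (singularTerm N p).re := by
    have := congrArg Complex.re hv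
    simpa using this.symm
  have h4 := (abs_le.1 ((Complex.abs_re_le_norm _).trans ((norm_singularTerm_le N p).trans
    (absTerm_prime_le hp)))).1
  have : 0 ≤ (p : ℝ) ^ (-(3 / 2) : ℝ) := by positivity
  linarith

/-- **The singular series is bounded below.** -/
theorem exists_singularSeries_pos : ∃ c : ℝ, 0 < c ∧
    ∀ N, N % 24 = 5 → c ≤ singularSeries N := by
  obtain ⟨a, ha⟩ : ∃ a : ℕ → ℝ, a = fun p : ℕ => 300000 * (p : ℝ) ^ (-(3 / 2) : ℝ) := ⟨_, rfl⟩
  have hasum : Summable a := ha ▸ (Real.summable_nat_rpow.2 (by norm_num)).mul_left _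
  have ha0 : ∀ p, 0 ≤ a p := fun p => by rw [ha]; positivity
  obtain ⟨p₀, hp₀⟩ := ((tendsto_sum_nat_add a).eventually
    (eventually_le_nhds (show (0 : ℝ) < 1 / 2 by norm_num))).exists
  obtain ⟨m, hm⟩ : ∃ m : ℕ → ℝ, m = fun p : ℕ => (p : ℝ) / (p.totient : ℝ) ^ 5 := ⟨_, rfl⟩
  have hm0 : ∀ p ∈ Nat.primesBelow p₀, 0 < m p := fun p hp => by
    have h1 := (Nat.mem_primesBelow.1 hp).2.pos
    have h2 := Nat.totient_pos.2 h1
    rw [hm]
    positivity
  refine ⟨(∏ p ∈ Nat.primesBelow p₀, m p) * (1 / 2), mul_pos (prod_pos hm0) (by norm_num),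
    fun N hN => ?_⟩
  have hE := EulerProduct.eulerProduct (f := singularTerm N) (singularTerm_one N)
    (fun h => singularTerm_mul N h) (summable_singularTerm N) (singularTerm_zero N)
  refine ge_of_tendsto ((Complex.continuous_re.tendsto _).comp hE)
    (eventually_atTop.2 ⟨p₀, fun n hn => ?_⟩)
  obtain ⟨S, hS⟩ : ∃ S, S = Nat.primesBelow n := ⟨_, rfl⟩
  obtain ⟨d, hd⟩ : ∃ d : ℕ → ℝ, d = fun p => (localDensity N p).re := ⟨_, rfl⟩
  have hspec : ∀ p, p.Prime → localDensity N p = (d p : ℂ) ∧ m p ≤ d p ∧ 1 - a p ≤ d p := by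
    intro p hp
    obtain ⟨v, hv, h1, h2⟩ := localDensity_spec hN hp
    have : d p = v := by rw [hd]; simp [hv]
    rw [this, hm, ha]
    exact ⟨hv, h1, h2⟩
  have hreal : ∏ p ∈ S, ∑' e, singularTerm N (p ^ e) = ((∏ p ∈ S, d p : ℝ) : ℂ) := by
    rw [Complex.ofReal_prod]
    exact prod_congr rfl fun p hp => (hspec p (Nat.mem_primesBelow.1 (hS ▸ hp)).2).1
  simp only [Function.comp, ← hS, hreal, Complex.ofReal_re]
  have hlow : S.filter (fun p => p < p₀) = Nat.primesBelow p₀ := by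
    ext p
    simp only [hS, mem_filter, Nat.mem_primesBelow]
    exact ⟨fun h => ⟨h.2, h.1.2⟩, fun h => ⟨⟨h.1.trans_le hn, h.2⟩, h.1⟩⟩
  rw [← prod_filter_mul_prod_filter_not S (fun p => p < p₀), hlow]
  have hsum : ∑ p ∈ S.filter (fun p => ¬p < p₀), a p ≤ 1 / 2 := by
    refine le_trans ?_ hp₀
    refine (sum_le_sum_of_subset_of_nonneg (t := Ico p₀ n) (fun p hp => ?_)
      fun p _ _ => ha0 p).trans ?_
    · rw [hS, mem_filter, Nat.mem_primesBelow] at hp
      exact mem_Ico.2 ⟨not_lt.1 hp.2, hp.1.1⟩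
    · rw [sum_Ico_eq_sum_range]
      simp only [add_comm p₀]
      exact ((summable_nat_add_iff p₀).2 hasum).sum_le_tsum _ fun i _ => ha0 _
  refine mul_le_mul (prod_le_prod (fun p hp => (hm0 p hp).le)
    fun p hp => (hspec p (Nat.mem_primesBelow.1 hp).2).2.1) ?_ (by norm_num)
    (prod_nonneg fun p hp =>
      le_trans (hm0 p hp).le (hspec p (Nat.mem_primesBelow.1 hp).2).2.1)
  have hle1 : ∀ p ∈ S.filter (fun p => ¬p < p₀), a p ≤ 1 := fun p hp =>
    ((single_le_sum (fun q _ => ha0 q) hp).trans hsum).trans (by norm_num)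
  refine le_trans (by linarith) ((WaringAsymptotic.one_sub_sum_le_prod _ a (fun p _ => ha0 p)
    hle1).trans (prod_le_prod (fun p hp => sub_nonneg.2 (hle1 p hp)) fun p hp => ?_))
  exact (hspec p (Nat.mem_primesBelow.1 (hS ▸ (mem_filter.1 hp).1)).2).2.2

end FA.HuaSquares
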