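import Fermat.Agent.HuaSquares.Weyl

/-!
# The bilinear sums with squares

A block of `∑ f m g k e (α m² k²)` is `O (P λ η ^ (1/16))` for coefficients bounded in mean square,
with `η = 1/q + 1/U + q/P²`, both variables at least `U`, and `λ = 4 (1 + log P)`.
-/

set_option autoImplicit false

noncomputable section

namespace FA.HuaSquares

open Finset FA.ThreePrimes

/-- `4 (1 + log P)`. -/
def scale (P : ℕ) : ℝ := 4 * logOne P

theorem one_le_scale (P : ℕ) : 1 ≤ scale P := by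
  unfold scale
  linarith [one_le_logOne P]

theorem logOne_le_scale {P n : ℕ} (h : n ≤ 8 * P ^ 2) : logOne n ≤ scale P := by
  rcases Nat.eq_zero_or_pos n with rfl | hn
  · simpa [logOne] using one_le_scale P
  have hP : (P : ℝ) ≠ 0 := by
    refine Nat.cast_ne_zero.2 ?_
    rintro rfl
    simp at h
    omega
  have h1 : Real.log n ≤ Real.log (2 ^ 3 * (P : ℝ) ^ 2) :=
    Real.log_le_log (Nat.cast_pos.2 hn) (by norm_num; exact_mod_cast h)
  rw [Real.log_mul (by norm_num) (by positivity), Real.log_pow, Real.log_pow] at h1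
  unfold scale logOne
  push_cast at h1
  linarith [Real.log_two_lt_d9, Real.log_natCast_nonneg P]

/-- `1/q + 1/U + q/P²`. -/
def saving (U q P : ℕ) : ℝ := 1 / (q : ℝ) + 1 / (U : ℝ) + (q : ℝ) / (P : ℝ) ^ 2

theorem saving_nonneg (U q P : ℕ) : 0 ≤ saving U q P := by
  unfold saving
  positivity

variable {q : ℕ} [NeZero q] {a : ℤ} {α : ℝ}

theorem sum_clip_multiples_le (ha : IsUnit (a : ZMod q)) (hα : |α - a / q| ≤ 1 / (q : ℝ) ^ 2)
    {l : ℝ} (hl : 1 + Real.log q ≤ l) (M K : ℕ) :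
    ∑ j ∈ range K, clip M (α * (j : ℕ)) ≤
      10 * l * ((K : ℝ) * M / q + K + M + q) := by
  have h := sum_clip_range_le ha hα 0 (Nat.cast_nonneg M : (0 : ℝ) ≤ M) K
  simp only [zero_add] at h
  refine h.trans ?_
  have hq : (0 : ℝ) < q := Nat.cast_pos.2 (NeZero.pos q)
  have hl1 : 1 ≤ l := by linarith [Real.log_natCast_nonneg q]
  calc ((K : ℝ) / q + 1) * (5 * M + 2 * q * (1 + Real.log q))
      ≤ ((K : ℝ) / q + 1) * (5 * M + 2 * q * l) := by gcongr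
    _ = 5 * ((K : ℝ) * M / q) + 2 * l * K + 5 * M + 2 * l * q := by field_simp; ring
    _ ≤ _ := by
        have h1 : 0 ≤ (K : ℝ) * M / q * (l - 1) := mul_nonneg (by positivity) (by linarith)
        have h2 : 0 ≤ (M : ℝ) * (l - 1) := mul_nonneg (by positivity) (by linarith)
        have h3 : 0 ≤ (K : ℝ) * l := by positivity
        have h4 : 0 ≤ (q : ℝ) * l := by positivity
        have h5 : 0 ≤ (K : ℝ) * M / q * l := by positivity
        have h6 : 0 ≤ (M : ℝ) * l := by positivity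
        linarith

/-- **The divisor sums of the Weyl bounds.** -/
theorem sum_divisors_weylBound_le (ha : IsUnit (a : ZMod q))
    (hα : |α - a / q| ≤ 1 / (q : ℝ) ^ 2) {P L M : ℕ} (hL : 1 ≤ L) (hM : 1 ≤ M) (hLM : L * M ≤ P)
    (hqP : q ≤ 8 * P ^ 2) :
    ∑ D ∈ Ioc 0 ((2 * L) ^ 2), (D.divisors.card : ℝ) * weylBound α M D ≤
      30 * scale P ^ 3 * ((L : ℝ) * M) ^ 2 *
        √√(1 / (q : ℝ) + 1 / L + 1 / M + q / ((L : ℝ) * M) ^ 2) := by
  obtain ⟨ε, hε⟩ : ∃ ε : ℝ, ε = 1 / (q : ℝ) + 1 / L + 1 / M + q / ((L : ℝ) * M) ^ 2 := ⟨_, rfl⟩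
  rw [← hε]
  obtain ⟨l, hl⟩ : ∃ l, l = scale P := ⟨_, rfl⟩
  rw [← hl]
  have hl1 : 1 ≤ l := hl ▸ one_le_scale P
  have hlq : 1 + Real.log q ≤ l := hl ▸ logOne_le_scale hqP
  have hq : (0 : ℝ) < q := Nat.cast_pos.2 (NeZero.pos q)
  have hLr : (1 : ℝ) ≤ L := by exact_mod_cast hL
  have hMr : (1 : ℝ) ≤ M := by exact_mod_cast hM
  have hε0 : 0 ≤ ε := by rw [hε]; positivity
  obtain ⟨Y, hY⟩ : ∃ Y : ℝ, Y = ((L : ℝ) * M) ^ 2 := ⟨_, rfl⟩
  rw [← hY]
  have hY0 : 0 ≤ Y := by rw [hY]; positivity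
  have hLP : L ≤ P := le_trans (Nat.le_mul_of_pos_right L hM) hLM
  obtain ⟨J, hJ⟩ : ∃ J, J = 2 * M * (2 * L) ^ 2 := ⟨_, rfl⟩
  have hJr : (J : ℝ) = 8 * (L : ℝ) ^ 2 * M := by rw [hJ]; push_cast; ring
  have hd : ∀ X : ℕ, X ≤ 8 * P ^ 2 →
      ∑ D ∈ Ioc 0 X, (D.divisors.card : ℝ) ^ 2 ≤ X * l ^ 3 := fun X hX =>
    (sum_card_divisors_sq_le X).trans (mul_le_mul_of_nonneg_left
      (pow_le_pow_left₀ (by linarith [one_le_logOne X]) (hl ▸ logOne_le_scale hX) 3)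
      (Nat.cast_nonneg X))
  have hJP : J ≤ 8 * P ^ 2 := by
    have h1 : L * (L * M) ≤ P * P := Nat.mul_le_mul hLP hLM
    rw [hJ, sq P]
    calc 2 * M * (2 * L) ^ 2 = 8 * (L * (L * M)) := by ring
      _ ≤ _ := Nat.mul_le_mul_left 8 h1
  have hclip : ∑ j ∈ Ioc 0 J, clip M (α * (j : ℕ)) ≤ 100 * l * (Y * ε) := by
    refine (sum_le_sum_of_subset_of_nonneg (t := range (J + 1))
      (fun j hj => mem_range.2 (by rw [mem_Ioc] at hj; omega))
      fun j _ _ => clip_nonneg (Nat.cast_nonneg M) _).trans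
      ((sum_clip_multiples_le ha hα hlq M (J + 1)).trans ?_)
    have e : ((J + 1 : ℕ) : ℝ) * M / q + (J + 1 : ℕ) + M + q ≤ 10 * (Y * ε) := by
      have h1 : ((J + 1 : ℕ) : ℝ) ≤ 9 * (L : ℝ) ^ 2 * M := by
        push_cast
        have : 1 ≤ (L : ℝ) ^ 2 * M := one_le_mul_of_one_le_of_one_le (one_le_pow₀ hLr) hMr
        linarith
      have h2 : Y * ε =
          (L : ℝ) ^ 2 * M * M / q + (L : ℝ) * M * M + (L : ℝ) ^ 2 * M + q := by
        rw [hε, hY]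
        field_simp
      have h3 : ((J + 1 : ℕ) : ℝ) * M / q ≤ 9 * (L : ℝ) ^ 2 * M * M / q := by gcongr
      have h4 : (M : ℝ) ≤ (L : ℝ) * M * M :=
        le_mul_of_one_le_left (by positivity) (one_le_mul_of_one_le_of_one_le hLr hMr)
      have h5 : (0 : ℝ) ≤ (L : ℝ) * M * M := by positivity
      have h6 : (0 : ℝ) ≤ (L : ℝ) ^ 2 * M := by positivity
      have h7 : (0 : ℝ) ≤ (L : ℝ) ^ 2 * M * M / q := by positivity
      rw [h2, show 9 * (L : ℝ) ^ 2 * M * M / q = 9 * ((L : ℝ) ^ 2 * M * M / q) by ring] at *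
      linarith
    exact (mul_le_mul_of_nonneg_left e (by positivity)).trans (le_of_eq (by ring))
  have hdF : ∑ j ∈ Ioc 0 J, (j.divisors.card : ℝ) * clip M (α * (j : ℕ)) ≤
      30 * l ^ 2 * Y * √ε := by
    refine le_of_pow_le_pow_left₀ two_ne_zero (by positivity) ((sum_mul_sq_le_sq_mul_sq _ _ _).trans
      ((mul_le_mul (hd J hJP) (?_ : _ ≤ (M : ℝ) * (100 * l * (Y * ε)))
        (sum_nonneg fun _ _ => sq_nonneg _) (by positivity)).trans ?_))
    · refine (sum_le_sum (g := fun j : ℕ => (M : ℝ) * clip M (α * (j : ℕ))) fun j _ => ?_).trans ?_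
      · rw [sq]
        exact mul_le_mul_of_nonneg_right (clip_le _ _) (clip_nonneg (Nat.cast_nonneg M) _)
      · rw [← mul_sum]
        exact mul_le_mul_of_nonneg_left hclip (Nat.cast_nonneg M)
    · rw [mul_pow, Real.sq_sqrt hε0, hJr]
      calc 8 * (L : ℝ) ^ 2 * M * l ^ 3 * (M * (100 * l * (Y * ε)))
          = 800 * l ^ 4 * ((L : ℝ) * M) ^ 2 * (Y * ε) := by ring
        _ ≤ _ := by
            rw [← hY]
            have : 0 ≤ l ^ 4 * Y * (Y * ε) := by positivity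
            linarith
  have hsum : ∑ D ∈ Ioc 0 ((2 * L) ^ 2), weylBound α M D ≤ 64 * l ^ 2 * Y * √ε := by
    unfold weylBound
    rw [sum_add_distrib, ← mul_sum, sum_const, Nat.card_Ioc, Nat.sub_zero, nsmul_eq_mul]
    have h1 : ((((2 * L) ^ 2 : ℕ)) : ℝ) * M ≤ 4 * (l ^ 2 * Y * √ε) := by
      have h2 : 1 / (M : ℝ) ≤ √ε := by
        refine Real.le_sqrt_of_sq_le ?_
        have h3 : 1 / (M : ℝ) ≤ 1 := div_le_one_of_le₀ hMr (by positivity)
        have h4 : 1 / (M : ℝ) ≤ ε := by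
          rw [hε]
          have : 0 ≤ 1 / (q : ℝ) + 1 / L + q / ((L : ℝ) * M) ^ 2 := by positivity
          linarith
        rw [sq]
        exact (mul_le_of_le_one_left (by positivity) h3).trans h4
      calc ((((2 * L) ^ 2 : ℕ)) : ℝ) * M = 4 * (1 * Y * (1 / (M : ℝ))) := by
            rw [hY]
            push_cast
            field_simp
            ring
        _ ≤ _ := by
            refine mul_le_mul_of_nonneg_left (mul_le_mul (mul_le_mul_of_nonneg_right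
              (one_le_pow₀ hl1) hY0) h2 (by positivity) (by positivity)) (by norm_num)
    have h5 := (sum_two_mul_le ((2 * L) ^ 2) M (fun j => clip M (α * (j : ℕ)))
      fun j => clip_nonneg (Nat.cast_nonneg M) _).trans (hJ ▸ hdF)
    linarith
  refine le_of_pow_le_pow_left₀ two_ne_zero (by positivity) ((sum_mul_sq_le_sq_mul_sq _ _ _).trans
    ((mul_le_mul (hd _ ?_) (?_ : _ ≤ 3 * (M : ℝ) ^ 2 * (64 * l ^ 2 * Y * √ε))
      (sum_nonneg fun _ _ => sq_nonneg _) (by positivity)).trans ?_))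
  · calc (2 * L) ^ 2 = 4 * L ^ 2 := by ring
      _ ≤ _ := Nat.mul_le_mul (by norm_num) (Nat.pow_le_pow_left hLP 2)
  · refine (sum_le_sum (g := fun D : ℕ => 3 * (M : ℝ) ^ 2 * weylBound α M D) fun D _ => ?_).trans ?_
    · rw [sq]
      exact mul_le_mul_of_nonneg_right (weylBound_le α hM D) (weylBound_nonneg α M D)
    · rw [← mul_sum]
      exact mul_le_mul_of_nonneg_left hsum (by positivity)
  · rw [mul_pow (30 * l ^ 3 * Y), Real.sq_sqrt (Real.sqrt_nonneg ε)]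
    calc (((2 * L) ^ 2 : ℕ) : ℝ) * l ^ 3 * (3 * (M : ℝ) ^ 2 * (64 * l ^ 2 * Y * √ε))
        = 768 * l ^ 5 * ((L : ℝ) * M) ^ 2 * Y * √ε := by push_cast; ring
      _ ≤ _ := by
          rw [← hY]
          have : 0 ≤ l ^ 5 * Y * Y * √ε := by positivity
          have h1 : l ^ 5 * Y * Y * √ε ≤ l ^ 6 * Y * Y * √ε := by
            gcongr <;> norm_num
          linarith

/-- **A block.** -/
theorem norm_block_le (ha : IsUnit (a : ZMod q)) (hα : |α - a / q| ≤ 1 / (q : ℝ) ^ 2)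
    (f g : ℕ → ℝ) {P L U : ℕ} {F G : ℝ} (hU : 1 ≤ U) (hUL : U ≤ L) (hUM : U ≤ P / L)
    (hqP : q ≤ 8 * P ^ 2) (hF0 : 0 ≤ F) (hG0 : 0 ≤ G)
    (hf : ∑ m ∈ Ioc L (2 * L), f m ^ 2 ≤ F ^ 2 * L)
    (hg : ∑ k ∈ Ioc 0 (P / L), g k ^ 2 ≤ G ^ 2 * (P / L : ℕ)) :
    ‖∑ m ∈ Ioc L (2 * L), (f m : ℂ) * squareInner α g P m‖ ≤
      4 * scale P * F * G * P * saving U q P ^ (1 / 16 : ℝ) := by
  obtain ⟨M, hM⟩ : ∃ M, M = P / L := ⟨_, rfl⟩
  rw [← hM] at hUM hg
  obtain ⟨η, hη⟩ : ∃ η, η = saving U q P := ⟨_, rfl⟩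
  rw [← hη]
  obtain ⟨l, hl⟩ : ∃ l, l = scale P := ⟨_, rfl⟩
  rw [← hl]
  have hl1 : 1 ≤ l := hl ▸ one_le_scale P
  have hη0 : 0 ≤ η := hη ▸ saving_nonneg U q P
  have hL : 1 ≤ L := hU.trans hUL
  have hM1 : 1 ≤ M := hU.trans hUM
  have hLM : L * M ≤ P := by rw [hM, mul_comm]; exact Nat.div_mul_le_self P L
  have hP2 : (P : ℝ) ≤ 2 * ((L : ℝ) * M) := by
    have h1 := Nat.lt_div_mul_add (a := P) (show 0 < L by omega)
    rw [← hM] at h1
    have h2 : L ≤ L * M := Nat.le_mul_of_pos_right L hM1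
    exact_mod_cast (show P ≤ 2 * (L * M) by rw [mul_comm L M] at *; omega)
  obtain ⟨Y, hY⟩ : ∃ Y : ℝ, Y = ((L : ℝ) * M) ^ 2 := ⟨_, rfl⟩
  obtain ⟨ε, hε⟩ : ∃ ε : ℝ, ε = 1 / (q : ℝ) + 1 / L + 1 / M + q / ((L : ℝ) * M) ^ 2 := ⟨_, rfl⟩
  have hLr : (1 : ℝ) ≤ L := by exact_mod_cast hL
  have hMr : (1 : ℝ) ≤ M := by exact_mod_cast hM1
  have hUr : (1 : ℝ) ≤ U := by exact_mod_cast hU
  have hPr : (1 : ℝ) ≤ P := by
    exact_mod_cast le_trans (Nat.mul_pos (show 0 < L by omega) hM1) hLM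
  have hε4 : ε ≤ 4 * η := by
    rw [hε, hη, saving]
    have h1 : (1 : ℝ) / L ≤ 1 / U := one_div_le_one_div_of_le (by linarith) (Nat.cast_le.2 hUL)
    have h2 : (1 : ℝ) / M ≤ 1 / U := one_div_le_one_div_of_le (by linarith) (Nat.cast_le.2 hUM)
    have h3 : (q : ℝ) / ((L : ℝ) * M) ^ 2 ≤ 4 * (q / (P : ℝ) ^ 2) := by
      rw [mul_div_assoc', div_le_div_iff₀ (by positivity) (by positivity)]
      have := pow_le_pow_left₀ (by linarith) hP2 2
      calc (q : ℝ) * (P : ℝ) ^ 2 ≤ q * (2 * ((L : ℝ) * M)) ^ 2 :=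
            mul_le_mul_of_nonneg_left this (Nat.cast_nonneg q)
        _ = _ := by ring
    have h4 : 0 ≤ 1 / (q : ℝ) := by positivity
    have h5 : 0 ≤ 1 / (U : ℝ) := by positivity
    linarith
  have hW := (sum_quadSum_sq_le α (show 0 < L by omega) hM).trans (add_le_add le_rfl
    (mul_le_mul_of_nonneg_left (sum_divisors_weylBound_le ha hα hL hM1 hLM hqP) zero_le_two))
  rw [← hε, ← hY, ← hl] at hW
  obtain ⟨t, ht⟩ : ∃ t, t = √√ε := ⟨_, rfl⟩
  have ht0 : 0 ≤ t := ht ▸ Real.sqrt_nonneg _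
  have hε0 : 0 ≤ ε := by rw [hε]; positivity
  have htη : t ≤ 2 * η ^ (1 / 4 : ℝ) := by
    rw [ht, Real.sqrt_eq_rpow, Real.sqrt_eq_rpow, ← Real.rpow_mul hε0,
      show (1 / 2 : ℝ) * (1 / 2) = 1 / 4 by norm_num]
    refine (Real.rpow_le_rpow hε0 hε4 (by norm_num)).trans ?_
    rw [Real.mul_rpow (by norm_num) hη0]
    refine mul_le_mul_of_nonneg_right ?_ (by positivity)
    rw [show (4 : ℝ) = 2 ^ (2 : ℝ) by norm_num, ← Real.rpow_mul two_pos.le]
    exact Real.rpow_le_self_of_one_le one_le_two (by norm_num)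
  have hW2 : ∑ z ∈ Ioc L (2 * L) ×ˢ Ioc L (2 * L),
      ‖quadSum (α * ((z.1 : ℝ) ^ 2 - (z.2 : ℝ) ^ 2)) (min (P / z.1) (P / z.2))‖ ^ 2 ≤
        256 * l ^ 4 * (P : ℝ) ^ 4 / ((L : ℝ) * M) ^ 2 * η ^ (1 / 4 : ℝ) := by
    refine hW.trans ?_
    rw [← ht]
    have h1 : (L : ℝ) * (M : ℝ) ^ 2 ≤ l ^ 3 * Y * t := by
      have h2 : 1 / (L : ℝ) ≤ t := by
        have h3 : 1 / (L : ℝ) ≤ 1 := div_le_one_of_le₀ hLr (by positivity)
        have h4 : 1 / (L : ℝ) ≤ ε := by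
          rw [hε]
          have : 0 ≤ 1 / (q : ℝ) + 1 / M + q / ((L : ℝ) * M) ^ 2 := by positivity
          linarith
        rw [ht]
        refine Real.le_sqrt_of_sq_le (Real.le_sqrt_of_sq_le ?_)
        refine le_trans ?_ h4
        rw [← pow_mul]
        exact pow_le_of_le_one (by positivity) h3 (by norm_num)
      calc (L : ℝ) * (M : ℝ) ^ 2 = 1 * Y * (1 / L) := by rw [hY]; field_simp
        _ ≤ _ := mul_le_mul (mul_le_mul_of_nonneg_right (one_le_pow₀ hl1) (by rw [hY]; positivity))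
            h2 (by positivity) (by rw [hY]; positivity)
    calc (L : ℝ) * (M : ℝ) ^ 2 + 2 * (30 * l ^ 3 * Y * t) ≤ 61 * l ^ 3 * Y * t := by linarith
      _ ≤ 61 * l ^ 4 * Y * (2 * η ^ (1 / 4 : ℝ)) := by
          have hY0 : 0 ≤ Y := by rw [hY]; positivity
          gcongr <;> norm_num
      _ = 122 * l ^ 4 * Y * η ^ (1 / 4 : ℝ) := by ring
      _ ≤ _ := by
          refine mul_le_mul_of_nonneg_right ?_ (by positivity)
          rw [le_div_iff₀ (by positivity), hY]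
          have h5 : ((L : ℝ) * M) ^ 4 ≤ (P : ℝ) ^ 4 :=
            pow_le_pow_left₀ (by positivity) (by exact_mod_cast hLM) 4
          calc 122 * l ^ 4 * ((L : ℝ) * M) ^ 2 * ((L : ℝ) * M) ^ 2
              = 122 * l ^ 4 * ((L : ℝ) * M) ^ 4 := by ring
            _ ≤ 256 * l ^ 4 * (P : ℝ) ^ 4 := by gcongr; norm_num
  obtain ⟨B, hB⟩ : ∃ B, B = ‖∑ m ∈ Ioc L (2 * L), (f m : ℂ) * squareInner α g P m‖ := ⟨_, rfl⟩
  rw [← hB]
  have h1 := norm_bilinear_sq_le α f g (P := P) (show 0 < L by omega) hM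
  rw [← hB] at h1
  refine le_of_pow_le_pow_left₀ (show (4 : ℕ) ≠ 0 by norm_num) (by positivity) ?_
  rw [show B ^ 4 = (B ^ 2) ^ 2 by ring]
  refine (pow_le_pow_left₀ (sq_nonneg B) h1 2).trans ?_
  rw [mul_pow]
  have hff : ∑ z ∈ Ioc L (2 * L) ×ˢ Ioc L (2 * L), |f z.1 * f z.2| ^ 2 ≤ (F ^ 2 * L) ^ 2 := by
    simp only [sq_abs, mul_pow (f _) (f _)]
    rw [sum_product]
    simp only
    rw [← sum_mul_sum, ← sq]
    exact pow_le_pow_left₀ (sum_nonneg fun _ _ => sq_nonneg _) hf 2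
  refine (mul_le_mul (pow_le_pow_left₀ (sum_nonneg fun _ _ => sq_nonneg _) hg 2)
    ((sum_mul_sq_le_sq_mul_sq _ _ _).trans (mul_le_mul hff hW2
      (sum_nonneg fun _ _ => sq_nonneg _) (by positivity))) (sq_nonneg _) (by positivity)).trans
    (le_of_eq ?_)
  rw [show (η ^ (1 / 4 : ℝ)) = (η ^ (1 / 16 : ℝ)) ^ 4 by
    rw [← Real.rpow_natCast, ← Real.rpow_mul hη0]; norm_num]
  field_simp
  ring

end FA.HuaSquares
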