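import Fermat.Agent.HuaSquares.Bilinear
import Fermat.Agent.ThreePrimes.Major

/-!
# The exponential sum over the squares of the primes

Vaughan's identity with a cut `U` a power of `log N`: `∑_{n ≤ √N} Λ n e (α n²)` is
`O (√N / (log N) ^ A)` when `(log N) ^ B ≤ q ≤ N / (log N) ^ B` and `|α - a/q| ≤ 1/q²`.
-/

set_option autoImplicit false

noncomputable section

namespace FA.HuaSquares

open Finset FA.ThreePrimes ArithmeticFunction

/-- `∑_{n ≤ P} f n e (α n²)`. -/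
def squareTwist (α : ℝ) (f : ℕ → ℝ) (P : ℕ) : ℂ :=
  ∑ n ∈ Ioc 0 P, (f n : ℂ) * eAdd (α * (n : ℝ) ^ 2)

theorem squareTwist_add (α : ℝ) (f g : ArithmeticFunction ℝ) (P : ℕ) :
    squareTwist α (f + g : ArithmeticFunction ℝ) P = squareTwist α f P + squareTwist α g P := by
  simp [squareTwist, add_mul, sum_add_distrib]

theorem squareTwist_sub (α : ℝ) (f g : ArithmeticFunction ℝ) (P : ℕ) :
    squareTwist α (f - g : ArithmeticFunction ℝ) P = squareTwist α f P - squareTwist α g P := by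
  rw [eq_sub_iff_add_eq, ← squareTwist_add, sub_add_cancel]

theorem squareTwist_mul (α : ℝ) (f g : ArithmeticFunction ℝ) (P : ℕ) :
    squareTwist α (f * g : ArithmeticFunction ℝ) P =
      ∑ m ∈ Ioc 0 P, (f m : ℂ) * squareInner α g P m := by
  trans ∑ x ∈ Ioc 0 P ×ˢ Ioc 0 P with x.1 * x.2 ≤ P,
    (f x.1 : ℂ) * g x.2 * eAdd (α * ((x.1 * x.2 : ℕ) : ℝ) ^ 2)
  · unfold squareTwist
    trans ∑ n ∈ Ioc 0 P, ∑ x ∈ Ioc 0 P ×ˢ Ioc 0 P with x.1 * x.2 = n,
      (f x.1 : ℂ) * g x.2 * eAdd (α * ((x.1 * x.2 : ℕ) : ℝ) ^ 2)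
    · refine sum_congr rfl fun n hn => ?_
      rw [mem_Ioc] at hn
      rw [mul_apply, Nat.divisorsAntidiagonal_eq_prod_filter_of_le hn.1.ne' hn.2,
        Complex.ofReal_sum, sum_mul]
      refine sum_congr rfl fun x hx => ?_
      rw [(mem_filter.1 hx).2]
      push_cast
      rfl
    · simp_rw [sum_filter]
      rw [sum_comm]
      exact sum_congr rfl fun _ _ => (by simp_all)
  · rw [sum_filter, sum_product]
    refine sum_congr rfl fun m hm => ?_
    rw [mem_Ioc] at hm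
    rw [squareInner, mul_sum, ← sum_filter]
    refine sum_congr ?_ fun k _ => ?_
    · ext k
      simp only [mem_filter, mem_Ioc, Nat.le_div_iff_mul_le hm.1, mul_comm m k]
      constructor
      · rintro ⟨⟨h1, -⟩, h2⟩
        exact ⟨h1, h2⟩
      · rintro ⟨h1, h2⟩
        exact ⟨⟨h1, le_trans (Nat.le_mul_of_pos_right k hm.1) h2⟩, h2⟩
    · push_cast
      ring_nf

variable {q : ℕ} [NeZero q] {a : ℤ} {α : ℝ}

/-- **One short variable.** -/
theorem norm_quadSum_short_le (ha : IsUnit (a : ZMod q)) (hα : |α - a / q| ≤ 1 / (q : ℝ) ^ 2)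
    {P K m j : ℕ} (hqP : q ≤ 8 * P ^ 2) (hm : 1 ≤ m) (hmK : m ≤ K) (hj : j ≤ P / m) :
    ‖quadSum (α * (m ^ 2 : ℕ)) j‖ ≤
      9 * scale P * P * √(1 / (q : ℝ) + K / P + q / (P : ℝ) ^ 2) := by
  obtain ⟨M, hM⟩ : ∃ M, M = P / m := ⟨_, rfl⟩
  rw [← hM] at hj
  rcases Nat.eq_zero_or_pos M with h | hM1
  · obtain rfl : j = 0 := by omega
    simp only [quadSum, Ioc_self, sum_empty, norm_zero]
    have := one_le_scale P
    positivity
  obtain ⟨l, hl⟩ : ∃ l, l = scale P := ⟨_, rfl⟩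
  rw [← hl]
  have hl1 : 1 ≤ l := hl ▸ one_le_scale P
  have hq : (0 : ℝ) < q := Nat.cast_pos.2 (NeZero.pos q)
  have hmM : m * M ≤ P := by rw [hM, mul_comm]; exact Nat.div_mul_le_self P m
  have hP : (1 : ℝ) ≤ P := by exact_mod_cast le_trans (Nat.mul_pos hm hM1) hmM
  have h1 : ∑ h ∈ Icc 1 M, clip M (α * (2 * h * m ^ 2 : ℕ)) ≤
      10 * l * (3 * ((P : ℝ) ^ 2 / q) + 4 * (K * P) + q) := by
    rw [← sum_image (g := fun h => 2 * h * m ^ 2) (f := fun j : ℕ => clip M (α * (j : ℕ)))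
      fun x _ y _ e => by
        have := Nat.eq_of_mul_eq_mul_right (pow_pos hm 2) e
        omega]
    refine (sum_le_sum_of_subset_of_nonneg (t := range (2 * M * m ^ 2 + 1)) (fun x hx => ?_)
      fun j _ _ => clip_nonneg (Nat.cast_nonneg M) _).trans
      ((sum_clip_multiples_le ha hα (hl ▸ logOne_le_scale hqP) M _).trans ?_)
    · obtain ⟨h, hh, rfl⟩ := mem_image.1 hx
      rw [mem_Icc] at hh
      rw [mem_range, Nat.lt_succ_iff]
      exact Nat.mul_le_mul_right _ (by omega)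
    refine mul_le_mul_of_nonneg_left ?_ (by positivity)
    have e1 : ((2 * M * m ^ 2 + 1 : ℕ) : ℝ) ≤ 3 * (K * P) := by
      exact_mod_cast (show 2 * M * m ^ 2 + 1 ≤ 3 * (K * P) by
        have h1 : m * (m * M) ≤ K * P := Nat.mul_le_mul hmK hmM
        have h2 : 1 ≤ m * (m * M) := Nat.mul_pos hm (Nat.mul_pos hm hM1)
        rw [show 2 * M * m ^ 2 = 2 * (m * (m * M)) by ring]
        omega)
    have e2 : ((2 * M * m ^ 2 + 1 : ℕ) : ℝ) * M / q ≤ 3 * ((P : ℝ) ^ 2 / q) := by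
      rw [mul_div_assoc']
      refine div_le_div_of_nonneg_right ?_ hq.le
      exact_mod_cast (show (2 * M * m ^ 2 + 1) * M ≤ 3 * P ^ 2 by
        have h1 : (m * M) * (m * M) ≤ P * P := Nat.mul_le_mul hmM hmM
        have h2 : M ≤ (m * M) * (m * M) := by
          calc M = 1 * (1 * M) := by ring
            _ ≤ _ := Nat.mul_le_mul (Nat.mul_pos hm hM1) (Nat.mul_le_mul_right M hm)
        rw [show (2 * M * m ^ 2 + 1) * M = 2 * ((m * M) * (m * M)) + M by ring, sq P]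
        omega)
    have e3 : (M : ℝ) ≤ K * P := by
      exact_mod_cast (le_trans (Nat.le_mul_of_pos_left M hm) hmM).trans
        (Nat.le_mul_of_pos_left P (show 0 < K by omega))
    linarith
  refine le_of_pow_le_pow_left₀ two_ne_zero (by positivity)
    (((norm_quadSum_mul_sq_le hj α (m ^ 2)).trans (add_le_add le_rfl
      (mul_le_mul_of_nonneg_left h1 zero_le_two))).trans ?_)
  rw [mul_pow, Real.sq_sqrt (by positivity)]
  have e : (P : ℝ) ^ 2 * (1 / (q : ℝ) + K / P + q / (P : ℝ) ^ 2) =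
      (P : ℝ) ^ 2 / q + K * P + q := by
    field_simp
  have e3 : (M : ℝ) ≤ l * (K * P) := by
    refine le_trans ?_ (le_mul_of_one_le_left (by positivity) hl1)
    exact_mod_cast (le_trans (Nat.le_mul_of_pos_left M hm) hmM).trans
      (Nat.le_mul_of_pos_left P (show 0 < K by omega))
  calc (M : ℝ) + 2 * (10 * l * (3 * ((P : ℝ) ^ 2 / q) + 4 * (K * P) + q))
      ≤ 81 * l * ((P : ℝ) ^ 2 / q + K * P + q) := by
        have h2 : 0 ≤ l * ((P : ℝ) ^ 2 / q) := by positivity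
        have h3 : 0 ≤ l * ((K : ℝ) * P) := by positivity
        have h4 : 0 ≤ l * (q : ℝ) := by positivity
        linarith
    _ ≤ 81 * l ^ 2 * ((P : ℝ) ^ 2 / q + K * P + q) := by
        gcongr
        exact le_self_pow₀ hl1 two_ne_zero
    _ = _ := by rw [← e]; ring

theorem squareInner_one_eq (α : ℝ) (P m : ℕ) :
    squareInner α oneR P m = quadSum (α * (m ^ 2 : ℕ)) (P / m) := by
  rw [squareInner, quadSum]
  refine sum_congr rfl fun k hk => ?_
  rw [mem_Ioc] at hk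
  simp [oneR, zeta_apply, hk.1.ne']
  ring_nf

/-- Abel summation for `log k`. -/
theorem norm_squareInner_log_le (α : ℝ) {P m : ℕ} {R : ℝ}
    (hR : ∀ j ≤ P / m, ‖quadSum (α * (m ^ 2 : ℕ)) j‖ ≤ R) :
    ‖squareInner α ArithmeticFunction.log P m‖ ≤ 2 * R * Real.log (P / m : ℕ) := by
  obtain ⟨K, hK⟩ : ∃ K, K = P / m := ⟨_, rfl⟩
  obtain ⟨γ, hγ⟩ : ∃ γ : ℝ, γ = α * (m ^ 2 : ℕ) := ⟨_, rfl⟩
  rw [← hK, ← hγ] at hR
  rw [squareInner, ← hK]
  rcases Nat.eq_zero_or_pos K with rfl | hK1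
  · simp
  obtain ⟨D, hD⟩ : ∃ D : ℕ → ℝ, D = fun j : ℕ => Real.log ((j + 1 : ℕ) : ℝ) - Real.log j :=
    ⟨_, rfl⟩
  have hD0 : ∀ j ∈ Ico 1 K, 0 ≤ D j := fun j hj => by
    rw [mem_Ico] at hj
    rw [hD]
    exact sub_nonneg.2 (Real.log_le_log (Nat.cast_pos.2 hj.1) (Nat.cast_le.2 (Nat.le_succ j)))
  have e : ∑ k ∈ Ioc 0 K, (ArithmeticFunction.log k : ℂ) * eAdd (α * ((m : ℝ) * k) ^ 2) =
      ∑ j ∈ Ico 1 K, (D j : ℂ) * ∑ k ∈ Ioc j K, eAdd (γ * (k : ℝ) ^ 2) := by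
    simp only [mul_sum]
    rw [sum_comm' (t' := Ioc 0 K) (s' := fun k => Ico 1 k)]
    · refine sum_congr rfl fun k hk => ?_
      rw [mem_Ioc] at hk
      rw [← sum_mul, ← Complex.ofReal_sum, hD, sum_Ico_sub (fun j : ℕ => Real.log (j : ℝ)) hk.1,
        hγ]
      rw [ArithmeticFunction.log_apply, Nat.cast_one, Real.log_one, sub_zero]
      congr 2
      push_cast
      ring
    · intro j k
      simp only [mem_Ico, mem_Ioc]
      omega
  rw [e]
  refine (norm_sum_le _ _).trans ((sum_le_sum (g := fun j => D j * (2 * R))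
    fun j hj => ?_).trans (le_of_eq ?_))
  · rw [norm_mul, Complex.norm_real, Real.norm_eq_abs, abs_of_nonneg (hD0 j hj)]
    refine mul_le_mul_of_nonneg_left ?_ (hD0 j hj)
    rw [mem_Ico] at hj
    have e2 : ∑ k ∈ Ioc j K, eAdd (γ * (k : ℝ) ^ 2) = quadSum γ K - quadSum γ j := by
      rw [quadSum, quadSum, ← sum_Ioc_consecutive _ (Nat.zero_le j) hj.2.le, add_sub_cancel_left]
    rw [e2, two_mul]
    exact (norm_sub_le _ _).trans (add_le_add (hR K le_rfl) (hR j hj.2.le))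
  · rw [← sum_mul, hD, sum_Ico_sub (fun j : ℕ => Real.log (j : ℝ)) hK1]
    simp
    ring

/-- **Sums of type I.** -/
theorem norm_typeOne_square_le (f g : ArithmeticFunction ℝ) {P K : ℕ} {B R : ℝ} (hB : 0 ≤ B)
    (hR : 0 ≤ R) (hf : ∀ m, m ≤ P → |f m| ≤ B) (hf0 : ∀ m, K < m → f m = 0)
    (hg : ∀ m, 1 ≤ m → m ≤ K → ‖squareInner α g P m‖ ≤ R) :
    ‖squareTwist α (f * g : ArithmeticFunction ℝ) P‖ ≤ K * (B * R) := by
  rw [squareTwist_mul]
  refine (norm_sum_le _ _).trans ((sum_le_sum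
    (g := fun m => if m ≤ K then B * R else 0) fun m hm => ?_).trans ?_)
  · rw [mem_Ioc] at hm
    split_ifs with h
    · rw [norm_mul, Complex.norm_real, Real.norm_eq_abs]
      exact mul_le_mul (hf m hm.2) (hg m hm.1 h) (norm_nonneg _) hB
    · simp [hf0 m (not_le.1 h)]
  · rw [← sum_filter, sum_const, nsmul_eq_mul]
    refine mul_le_mul_of_nonneg_right (Nat.cast_le.2 ?_) (mul_nonneg hB hR)
    refine (card_le_card (t := Icc 1 K) fun m hm => ?_).trans (by simp)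
    simp only [mem_filter, mem_Ioc] at hm
    exact mem_Icc.2 ⟨hm.1.1, hm.2⟩

/-- **The sum of type II.** -/
theorem norm_typeTwo_square_le (ha : IsUnit (a : ZMod q)) (hα : |α - a / q| ≤ 1 / (q : ℝ) ^ 2)
    {P U : ℕ} (hqP : q ≤ 8 * P ^ 2) (hU : 1 ≤ U) :
    ‖squareTwist α (highPart U Λ * tailCoeff U : ArithmeticFunction ℝ) P‖ ≤
      16 * scale P ^ 5 * P * saving U q P ^ (1 / 16 : ℝ) := by
  obtain ⟨F, hF⟩ : ∃ F : ℕ → ℂ,
      F = fun m => (highPart U Λ m : ℂ) * squareInner α (tailCoeff U) P m := ⟨_, rfl⟩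
  obtain ⟨H, hH⟩ : ∃ H, H = Nat.log 2 P + 1 := ⟨_, rfl⟩
  obtain ⟨l, hl⟩ : ∃ l, l = scale P := ⟨_, rfl⟩
  rw [← hl]
  have hl1 : 1 ≤ l := hl ▸ one_le_scale P
  obtain ⟨T, hT⟩ : ∃ T : ℝ, T = 16 * l ^ 4 * P * saving U q P ^ (1 / 16 : ℝ) := ⟨_, rfl⟩
  have hT0 : 0 ≤ T := by
    rw [hT]
    have := saving_nonneg U q P
    positivity
  have hUH : P ≤ U * 2 ^ H := by
    rw [hH]
    exact le_trans (Nat.lt_pow_succ_log_self one_lt_two P).le (Nat.le_mul_of_pos_left _ hU)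
  have e : squareTwist α (highPart U Λ * tailCoeff U : ArithmeticFunction ℝ) P =
      ∑ m ∈ Ioc U (U * 2 ^ H), F m := by
    rw [squareTwist_mul, hF]
    refine sum_congr_of_eq_on_inter ?_ ?_ ?_
    · intro m hm hm'
      rw [mem_Ioc] at hm hm'
      simp [highPart_apply, show m ≤ U by omega]
    · intro m hm hm'
      rw [mem_Ioc] at hm hm'
      rw [squareInner, Nat.div_eq_of_lt (by omega)]
      simp
    · intros
      rfl
  have hblock : ∀ L, U ≤ L → ‖∑ m ∈ Ioc L (2 * L), F m‖ ≤ T := by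
    intro L hUL
    rcases le_or_gt (P / L) U with h | h
    · refine le_trans (le_of_eq (norm_eq_zero.2 (sum_eq_zero fun m hm => ?_))) hT0
      rw [mem_Ioc] at hm
      rw [hF]
      simp only
      rw [squareInner, sum_eq_zero, mul_zero]
      intro k hk
      rw [mem_Ioc] at hk
      have : P / m ≤ P / L := Nat.div_le_div_left hm.1.le (by omega)
      simp [tailCoeff_eq_zero (show k ≤ U by omega)]
    have hLP : L ≤ P := by
      by_contra hlt
      rw [Nat.div_eq_of_lt (by omega)] at h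
      omega
    rw [hF, hT, hl]
    refine (norm_block_le ha hα (highPart U Λ) (tailCoeff U) (F := 4 * scale P)
      (G := scale P ^ 2) hU hUL h.le hqP (by positivity [one_le_scale P]) (by positivity) ?_
      ?_).trans (le_of_eq ?_)
    · refine (sum_sq_highPart_vonMangoldt_le hUL hLP).trans ?_
      have h1 : logOne P * 12 ≤ (4 * scale P) ^ 2 := by
        have := one_le_logOne P
        unfold scale
        nlinarith
      rw [← mul_assoc]
      exact mul_le_mul_of_nonneg_right h1 (Nat.cast_nonneg L)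
    · refine (sum_le_sum fun k _ => ?_).trans ((sum_card_divisors_sq_le _).trans ?_)
      · exact sq_abs (tailCoeff U k) ▸ pow_le_pow_left₀ (abs_nonneg _) (abs_tailCoeff_le U k) 2
      · rw [mul_comm]
        refine mul_le_mul_of_nonneg_right ?_ (Nat.cast_nonneg _)
        have h1 := one_le_logOne (P / L)
        rw [← pow_mul]
        refine (pow_le_pow_left₀ (by linarith) (logOne_le_scale ?_) 3).trans
          (pow_le_pow_right₀ (one_le_scale P) (by norm_num))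
        refine (Nat.div_le_self P L).trans ?_
        have := Nat.le_self_pow two_ne_zero P
        omega
    · ring
  have key : ∀ H : ℕ, ‖∑ m ∈ Ioc U (U * 2 ^ H), F m‖ ≤ H * T := by
    intro H
    induction H with
    | zero => simp
    | succ H ih =>
      have h1 : U ≤ U * 2 ^ H := Nat.le_mul_of_pos_right U (by positivity)
      rw [pow_succ, ← mul_assoc, mul_comm _ 2, ← sum_Ioc_consecutive F h1 (by omega),
        Nat.cast_succ, add_mul _ (1 : ℝ), one_mul]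
      exact (norm_add_le _ _).trans (add_le_add ih (hblock _ h1))
  rw [e]
  refine (key H).trans ?_
  have hH2 : (H : ℝ) ≤ l := by
    rw [hH, hl, scale, logOne]
    rcases Nat.eq_zero_or_pos P with rfl | hP
    · simp
    have h3 : ((2 : ℝ) ^ Nat.log 2 P) ≤ P := by exact_mod_cast Nat.pow_log_le_self 2 hP.ne'
    have h4 := Real.log_le_log (by positivity) h3
    rw [Real.log_pow] at h4
    have h5 : (0 : ℝ) ≤ Nat.log 2 P := Nat.cast_nonneg _
    push_cast
    nlinarith [Real.log_two_gt_d9]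
  refine (mul_le_mul_of_nonneg_right hH2 hT0).trans (le_of_eq ?_)
  rw [hT]
  ring

/-- **Vaughan's identity applied.** -/
theorem norm_squareTwist_le (ha : IsUnit (a : ZMod q)) (hα : |α - a / q| ≤ 1 / (q : ℝ) ^ 2)
    {P U : ℕ} (hqP : q ≤ 8 * P ^ 2) (hU : 1 ≤ U) :
    ‖squareTwist α Λ P‖ ≤ 6 * U +
      27 * scale P ^ 3 * P * ((U : ℝ) ^ 2 * √(1 / (q : ℝ) + (U : ℝ) ^ 2 / P + q / (P : ℝ) ^ 2)) +
      16 * scale P ^ 5 * P * saving U q P ^ (1 / 16 : ℝ) := by
  obtain ⟨l, hl⟩ : ∃ l, l = scale P := ⟨_, rfl⟩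
  have hl1 : 1 ≤ l := hl ▸ one_le_scale P
  have hlog : ∀ n ≤ P, Real.log n ≤ l := fun n hn => by
    refine le_trans ?_ (hl ▸ logOne_le_scale (P := P) (n := n) ?_)
    · rw [logOne]
      linarith
    · have := Nat.le_self_pow two_ne_zero P
      omega
  obtain ⟨R, hR⟩ : ∃ R : ℝ,
      R = 9 * l * P * √(1 / (q : ℝ) + (U : ℝ) ^ 2 / P + q / (P : ℝ) ^ 2) := ⟨_, rfl⟩
  have hR0 : 0 ≤ R := by rw [hR]; positivity
  have hquad : ∀ m, 1 ≤ m → m ≤ U * U → ∀ j ≤ P / m, ‖quadSum (α * (m ^ 2 : ℕ)) j‖ ≤ R := by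
    intro m h1 h2 j hj
    refine (norm_quadSum_short_le ha hα hqP h1 h2 hj).trans (le_of_eq ?_)
    rw [hR, hl, Nat.cast_mul, sq (U : ℝ)]
  have hUU : U ≤ U * U := Nat.le_mul_of_pos_left U hU
  have p0 : ‖squareTwist α (lowPart U Λ) P‖ ≤ 6 * U := by
    refine (norm_sum_le _ _).trans ?_
    refine le_trans (le_of_eq (sum_congr rfl fun n _ => ?_))
      (le_trans (le_of_eq_of_le (sum_filter (fun n : ℕ => n ≤ U) fun n : ℕ => Λ n).symm
      (sum_le_sum_of_subset_of_nonneg (t := Ioc 0 U) (fun n hn => ?_)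
        fun n _ _ => vonMangoldt_nonneg)) (sum_vonMangoldt_le U))
    · rw [norm_mul, norm_eAdd, mul_one, Complex.norm_real, Real.norm_eq_abs, lowPart_apply]
      split_ifs
      · exact abs_of_nonneg vonMangoldt_nonneg
      · exact abs_zero
    · rw [mem_filter, mem_Ioc] at hn
      rw [mem_Ioc]
      omega
  have p1 : ‖squareTwist α (lowPart U moebiusR * ArithmeticFunction.log : ArithmeticFunction ℝ) P‖
      ≤ (U * U : ℕ) * (1 * (2 * R * l)) := by
    refine norm_typeOne_square_le (lowPart U moebiusR) ArithmeticFunction.log zero_le_one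
      (by positivity) (fun m _ => ?_) (fun m hm => ?_) fun m h1 h2 => ?_
    · rw [lowPart_apply]
      split_ifs
      · exact abs_moebiusR_le m
      · simp
    · rw [lowPart_apply, if_neg (by omega)]
    · exact (norm_squareInner_log_le α (hquad m h1 h2)).trans (mul_le_mul_of_nonneg_left
        (hlog _ (Nat.div_le_self P m)) (by positivity))
  have p2 : ‖squareTwist α (lowPart U Λ * lowPart U moebiusR * oneR : ArithmeticFunction ℝ) P‖
      ≤ (U * U : ℕ) * (l * R) := by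
    refine norm_typeOne_square_le (lowPart U Λ * lowPart U moebiusR) oneR (by linarith) hR0
      (fun m hm => (abs_low_mul_le U m).trans (hlog m hm)) (fun m hm => low_mul_eq_zero hm)
      fun m h1 h2 => ?_
    rw [squareInner_one_eq]
    exact hquad m h1 h2 _ le_rfl
  have p3 := norm_typeTwo_square_le ha hα hqP hU
  rw [vaughan U, squareTwist_add, squareTwist_sub, squareTwist_add]
  refine (norm_add_le _ _).trans ((add_le_add ((norm_sub_le _ _).trans
    (add_le_add ((norm_add_le _ _).trans (add_le_add p0 p1)) p2)) p3).trans ?_)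
  rw [← hl]
  have e : ((U * U : ℕ) : ℝ) * (1 * (2 * R * l)) + ((U * U : ℕ) : ℝ) * (l * R) =
      27 * l ^ 2 * P * ((U : ℝ) ^ 2 * √(1 / (q : ℝ) + (U : ℝ) ^ 2 / P + q / (P : ℝ) ^ 2)) := by
    rw [hR]
    push_cast
    ring
  have h23 : l ^ 2 ≤ l ^ 3 := pow_le_pow_right₀ hl1 (by norm_num)
  have h24 : 27 * l ^ 2 * P * ((U : ℝ) ^ 2 * √(1 / (q : ℝ) + (U : ℝ) ^ 2 / P + q / (P : ℝ) ^ 2)) ≤
      27 * l ^ 3 * P * ((U : ℝ) ^ 2 * √(1 / (q : ℝ) + (U : ℝ) ^ 2 / P + q / (P : ℝ) ^ 2)) := by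
    gcongr
  linarith

/-- **Vinogradov's bound for the squares of the primes.** -/
theorem exists_square_exp_sum_le (A : ℕ) : ∃ (B : ℕ) (C : ℝ), 0 < C ∧
    ∀ (N q : ℕ) [NeZero q] (a : ℤ) (α : ℝ), IsUnit (a : ZMod q) →
      |α - a / q| ≤ 1 / (q : ℝ) ^ 2 → Real.log N ^ B ≤ q → (q : ℝ) ≤ N / Real.log N ^ B →
        ‖squareTwist α Λ (Nat.sqrt N)‖ ≤ C * (√(N : ℝ) / Real.log N ^ A) := by
  obtain ⟨E, hE⟩ : ∃ E, E = A + 10 := ⟨_, rfl⟩
  obtain ⟨K, hK, hpow⟩ := exists_log_pow_le (96 * E + 2 * E)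
  obtain ⟨c, hc⟩ : ∃ c : ℝ, c = √(5 + 2 * K) := ⟨_, rfl⟩
  have hc0 : 0 ≤ c := hc ▸ Real.sqrt_nonneg _
  refine ⟨128 * E, (6 * K + 27 * 8 ^ 3 * c + 16 * 8 ^ 5 * 7) * 2, by positivity,
    fun N q _ a α ha hα hq1 hq2 => ?_⟩
  rcases lt_or_ge N 4 with hN | hN
  · have hP : Nat.sqrt N ≤ 1 := by
      by_contra h
      have := Nat.le_sqrt'.1 (show 2 ≤ Nat.sqrt N by omega)
      omega
    rw [show squareTwist α Λ (Nat.sqrt N) = 0 from sum_eq_zero fun n hn => by
      rw [mem_Ioc] at hn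
      rw [show n = 1 by omega]
      simp, norm_zero]
    have := Real.log_natCast_nonneg N
    positivity
  obtain ⟨P, hP⟩ : ∃ P, P = Nat.sqrt N := ⟨_, rfl⟩
  rw [← hP]
  have hP2 : 2 ≤ P := hP ▸ Nat.le_sqrt'.2 hN
  have hPN : P ^ 2 ≤ N := hP ▸ Nat.sqrt_le' N
  have hNP : N ≤ 4 * P ^ 2 := by
    have h : N < (P + 1) ^ 2 := hP ▸ Nat.lt_succ_sqrt' N
    have : (P + 1) ^ 2 ≤ (2 * P) ^ 2 := Nat.pow_le_pow_left (by omega) 2
    rw [mul_pow] at this
    omega
  have hN1 : (4 : ℝ) ≤ N := by exact_mod_cast hN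
  have hP0 : (2 : ℝ) ≤ P := by exact_mod_cast hP2
  have hPN' : (P : ℝ) ^ 2 ≤ N := by exact_mod_cast hPN
  have hNP' : (N : ℝ) ≤ 4 * (P : ℝ) ^ 2 := by exact_mod_cast hNP
  have hsq : (P : ℝ) ≤ √(N : ℝ) := Real.le_sqrt_of_sq_le hPN'
  have hsq' : √(N : ℝ) ≤ 2 * P := by
    rw [Real.sqrt_le_left (by positivity)]
    linarith
  obtain ⟨l, hl⟩ : ∃ l, l = Real.log N := ⟨_, rfl⟩
  rw [← hl] at hq1 hq2 ⊢
  have hl1 : 1 ≤ l := by
    rw [hl, Real.le_log_iff_exp_le (by linarith)]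
    linarith [Real.exp_one_lt_d9]
  have hl0 : 0 < l := by linarith
  obtain ⟨V, hV⟩ : ∃ V, V = l ^ (16 * E) := ⟨_, rfl⟩
  have hV1 : 1 ≤ V := hV ▸ one_le_pow₀ hl1
  obtain ⟨U, hU⟩ : ∃ U, U = ⌊V⌋₊ := ⟨_, rfl⟩
  have hU1 : 1 ≤ U := hU ▸ (Nat.one_le_floor_iff V).2 hV1
  have hUV : (U : ℝ) ≤ V := hU ▸ Nat.floor_le (by linarith)
  have hVU : V ≤ 2 * U := by
    have h1 := Nat.lt_floor_add_one V
    rw [← hU] at h1
    have : (1 : ℝ) ≤ U := by exact_mod_cast hU1
    linarith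
  have hqP : q ≤ 8 * P ^ 2 := by
    have h : (q : ℝ) ≤ N := hq2.trans (div_le_self (by linarith) (one_le_pow₀ hl1))
    have : q ≤ N := by exact_mod_cast h
    omega
  have hscale : scale P ≤ 8 * l := by
    have h1 : Real.log P ≤ Real.log N := Real.log_le_log (by linarith)
      (by exact_mod_cast (Nat.le_self_pow two_ne_zero P).trans hPN)
    rw [← hl] at h1
    unfold scale logOne
    linarith
  have hs0 := one_le_scale P
  obtain ⟨X, hX⟩ : ∃ X : ℝ, X = (l ^ E)⁻¹ := ⟨_, rfl⟩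
  have hXl : ∀ m, 2 * E ≤ m → (l ^ m)⁻¹ ≤ X ^ 2 := fun m hm => by
    rw [hX, inv_pow, ← pow_mul]
    exact inv_anti₀ (by positivity) (pow_le_pow_right₀ hl1 (by omega))
  have hX0 : 0 ≤ X := by rw [hX]; positivity
  have hq' : 1 / (q : ℝ) ≤ (l ^ (128 * E))⁻¹ := by
    rw [one_div]
    exact inv_anti₀ (by positivity) hq1
  have hqP' : (q : ℝ) / (P : ℝ) ^ 2 ≤ 4 * (l ^ (128 * E))⁻¹ := by
    rw [div_le_iff₀ (by positivity)]
    refine hq2.trans ?_
    rw [div_eq_mul_inv, show 4 * (l ^ (128 * E))⁻¹ * (P : ℝ) ^ 2 =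
      4 * (P : ℝ) ^ 2 * (l ^ (128 * E))⁻¹ by ring]
    exact mul_le_mul_of_nonneg_right hNP' (by positivity)
  have hbig : ∀ m, m ≤ 96 * E + 2 * E → l ^ m ≤ K * (2 * P) := fun m hm =>
    (pow_le_pow_right₀ hl1 hm).trans ((hl ▸ hpow N (by linarith)).trans
      (mul_le_mul_of_nonneg_left hsq' hK.le))
  -- the first term
  have t0 : (U : ℝ) ≤ K * 2 * P * X := by
    refine hUV.trans ?_
    rw [hV, hX, ← div_eq_mul_inv, le_div_iff₀ (by positivity), ← pow_add,
      show K * 2 * (P : ℝ) = K * (2 * P) by ring]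
    exact hbig _ (by omega)
  -- type I
  have t1 : (U : ℝ) ^ 2 * √(1 / (q : ℝ) + (U : ℝ) ^ 2 / P + q / (P : ℝ) ^ 2) ≤ c * X := by
    have e : (U : ℝ) ^ 2 = √((U : ℝ) ^ 4) := by
      rw [show (U : ℝ) ^ 4 = ((U : ℝ) ^ 2) ^ 2 by ring, Real.sqrt_sq (by positivity)]
    rw [hc, ← Real.sqrt_sq hX0, ← Real.sqrt_mul (by positivity)]
    conv_lhs => rw [e, ← Real.sqrt_mul (by positivity), ← e]
    refine Real.sqrt_le_sqrt ?_
    have h1 : (U : ℝ) ^ 4 ≤ l ^ (64 * E) := by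
      refine (pow_le_pow_left₀ (Nat.cast_nonneg U) hUV 4).trans (le_of_eq ?_)
      rw [hV, ← pow_mul]
      ring_nf
    have h2 : (U : ℝ) ^ 4 * (l ^ (128 * E))⁻¹ ≤ X ^ 2 := by
      refine (mul_le_mul_of_nonneg_right h1 (by positivity)).trans
        (le_of_eq_of_le ?_ (hXl (64 * E) (by omega)))
      rw [show 128 * E = 64 * E + 64 * E by ring, pow_add, mul_inv, ← mul_assoc,
        mul_inv_cancel₀ (by positivity), one_mul]
    have h3 : (U : ℝ) ^ 4 * ((U : ℝ) ^ 2 / P) ≤ 2 * K * X ^ 2 := by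
      rw [hX, inv_pow, ← pow_mul, ← div_eq_mul_inv, mul_div_assoc', div_le_div_iff₀
        (by linarith) (by positivity)]
      calc (U : ℝ) ^ 4 * (U : ℝ) ^ 2 * l ^ (E * 2) ≤ V ^ 6 * l ^ (E * 2) := by
            rw [← pow_add]
            gcongr
        _ = l ^ (96 * E + 2 * E) := by rw [hV, ← pow_mul, ← pow_add]; ring_nf
        _ ≤ K * (2 * P) := hbig _ le_rfl
        _ = _ := by ring
    calc (U : ℝ) ^ 4 * (1 / (q : ℝ) + (U : ℝ) ^ 2 / P + q / (P : ℝ) ^ 2)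
        = (U : ℝ) ^ 4 * (1 / (q : ℝ)) + (U : ℝ) ^ 4 * ((U : ℝ) ^ 2 / P) +
            (U : ℝ) ^ 4 * (q / (P : ℝ) ^ 2) := by ring
      _ ≤ (U : ℝ) ^ 4 * (l ^ (128 * E))⁻¹ + 2 * K * X ^ 2 +
            (U : ℝ) ^ 4 * (4 * (l ^ (128 * E))⁻¹) := by gcongr
      _ ≤ _ := by linarith
  -- type II
  have t2 : saving U q P ^ (1 / 16 : ℝ) ≤ 7 * X := by
    have h1 : saving U q P ≤ 7 * X ^ 16 := by
      have h2 : (l ^ (128 * E))⁻¹ ≤ (l ^ (16 * E))⁻¹ :=
        inv_anti₀ (by positivity) (pow_le_pow_right₀ hl1 (by omega))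
      have h3 : 1 / (U : ℝ) ≤ 2 * (l ^ (16 * E))⁻¹ := by
        rw [← hV, ← div_eq_mul_inv, div_le_div_iff₀ (by exact_mod_cast hU1) (by linarith), one_mul]
        exact hVU
      rw [saving, hX, inv_pow, ← pow_mul, mul_comm E 16]
      linarith
    calc saving U q P ^ (1 / 16 : ℝ) ≤ (7 * X ^ 16) ^ (1 / 16 : ℝ) :=
          Real.rpow_le_rpow (saving_nonneg _ _ _) h1 (by norm_num)
      _ = (7 : ℝ) ^ (1 / 16 : ℝ) * X := by
          rw [Real.mul_rpow (by norm_num) (by positivity), ← Real.rpow_natCast X,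
            ← Real.rpow_mul hX0]
          norm_num
      _ ≤ _ := mul_le_mul_of_nonneg_right
          (Real.rpow_le_self_of_one_le (by norm_num) (by norm_num)) hX0
  refine (norm_squareTwist_le ha hα hqP hU1).trans ?_
  have hfin : (l ^ 5 * X) * P ≤ √(N : ℝ) / l ^ A := by
    rw [div_eq_mul_inv, mul_comm (√(N : ℝ))]
    refine mul_le_mul ?_ hsq (Nat.cast_nonneg P) (by positivity)
    rw [hX, hE, ← div_eq_mul_inv, div_le_iff₀ (by positivity), pow_add,
      inv_mul_cancel_left₀ (by positivity)]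
    exact pow_le_pow_right₀ hl1 (by norm_num)
  calc 6 * (U : ℝ) +
        27 * scale P ^ 3 * P *
          ((U : ℝ) ^ 2 * √(1 / (q : ℝ) + (U : ℝ) ^ 2 / P + q / (P : ℝ) ^ 2)) +
        16 * scale P ^ 5 * P * saving U q P ^ (1 / 16 : ℝ)
      ≤ 6 * (K * 2 * P * X) + 27 * (8 * l) ^ 3 * P * (c * X) + 16 * (8 * l) ^ 5 * P * (7 * X) := by
        have := saving_nonneg U q P
        gcongr
    _ ≤ (6 * K + 27 * 8 ^ 3 * c + 16 * 8 ^ 5 * 7) * ((l ^ 5 * X) * P) * 2 := by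
        have e1 : (P : ℝ) * X ≤ l ^ 5 * X * P := by
          rw [mul_comm (P : ℝ)]
          exact mul_le_mul_of_nonneg_right (le_mul_of_one_le_left hX0 (one_le_pow₀ hl1))
            (Nat.cast_nonneg P)
        have e2 : l ^ 3 * X * P ≤ l ^ 5 * X * P := by
          gcongr <;> norm_num
        have e3 := mul_le_mul_of_nonneg_left e1 hK.le
        have e4 := mul_le_mul_of_nonneg_left e2 hc0
        have e5 : 0 ≤ l ^ 5 * X * P := by positivity
        have e6 := mul_nonneg hc0 e5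
        have e7 := mul_nonneg hK.le e5
        linarith
    _ ≤ _ := by
        rw [mul_right_comm]
        exact mul_le_mul_of_nonneg_left hfin (by positivity)

end FA.HuaSquares
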