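import Fermat.Agent.HuaSquares.Minor

/-!
# The fourth moment

`x₁² + x₂² = y₁² + y₂²` has `O (P² (log P) ^ 3)` solutions up to `P`, so the fourth moment of
`∑ f n e (α n²)` over the points `h / M`, `M > 2 P²`, is `O (M B ^ 4 P² (log P) ^ 3)` for `|f| ≤ B`.
-/

set_option autoImplicit false

noncomputable section

namespace FA.HuaSquares

open Finset FA.ThreePrimes

/-- The weighted solutions of `x₁² + x₂² = y₁² + y₂²` up to `P`. -/
def quadrupleSum (f : ℕ → ℝ) (P : ℕ) : ℝ :=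
  ∑ z ∈ Ioc 0 P ×ˢ Ioc 0 P, ∑ w ∈ Ioc 0 P ×ˢ Ioc 0 P,
    if z.1 ^ 2 + z.2 ^ 2 = w.1 ^ 2 + w.2 ^ 2 then f z.1 * f z.2 * (f w.1 * f w.2) else 0

theorem card_partner_le {P m n : ℕ} (hnm : n < m) :
    ((Ioc 0 P ×ˢ Ioc 0 P).filter fun w => m ^ 2 + w.1 ^ 2 = n ^ 2 + w.2 ^ 2).card ≤
      (m ^ 2 - n ^ 2).divisors.card := by
  have h1 : n ^ 2 < m ^ 2 := Nat.pow_lt_pow_left hnm two_ne_zero
  have key : ∀ w : ℕ × ℕ, m ^ 2 + w.1 ^ 2 = n ^ 2 + w.2 ^ 2 →
      w.1 < w.2 ∧ m ^ 2 - n ^ 2 = (w.2 + w.1) * (w.2 - w.1) := by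
    intro w hw
    rw [← Nat.sq_sub_sq]
    refine ⟨lt_of_pow_lt_pow_left₀ 2 (Nat.zero_le _) (by omega), by omega⟩
  refine card_le_card_of_injOn (fun w => w.2 - w.1) (fun w hw => ?_) fun w hw v hv e => ?_
  · simp only [mem_coe, mem_filter] at hw ⊢
    rw [Nat.mem_divisors]
    exact ⟨(key w hw.2).2 ▸ dvd_mul_left _ _, by omega⟩
  · simp only [mem_coe, mem_filter] at hw hv e
    obtain ⟨a1, a2⟩ := key w hw.2
    obtain ⟨b1, b2⟩ := key v hv.2
    have h2 := a2.symm.trans b2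
    rw [e] at h2
    have h3 := Nat.eq_of_mul_eq_mul_right (by omega : 0 < v.2 - v.1) h2
    exact Prod.ext (by omega) (by omega)

theorem sum_quadruples_le (P : ℕ) :
    (∑ z ∈ Ioc 0 P ×ˢ Ioc 0 P, (((Ioc 0 P ×ˢ Ioc 0 P).filter
        fun w => z.1 ^ 2 + w.1 ^ 2 = z.2 ^ 2 + w.2 ^ 2).card : ℝ)) ≤
      3 * (P : ℝ) ^ 2 * scale P ^ 3 := by
  obtain ⟨S, hS⟩ : ∃ S, S = Ioc 0 P := ⟨_, rfl⟩
  rw [← hS]
  obtain ⟨F, hF⟩ : ∃ F : ℕ → ℕ → ℝ,
      F = fun m n => (((S ×ˢ S).filter fun w => m ^ 2 + w.1 ^ 2 = n ^ 2 + w.2 ^ 2).card : ℝ) :=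
    ⟨_, rfl⟩
  have hlow : ∑ z ∈ (S ×ˢ S).filter (fun z => z.2 < z.1), F z.1 z.2 ≤
      (P : ℝ) ^ 2 * scale P ^ 3 := by
    refine (sum_le_sum fun z hz => ?_).trans ((sum_sq_diff_le S (L := P)
      (fun m hm => (mem_Ioc.1 (hS ▸ hm)).2) (fun D => (D.divisors.card : ℝ))
      fun D => Nat.cast_nonneg _).trans ?_)
    · rw [hF, hS]
      exact Nat.cast_le.2 (card_partner_le (mem_filter.1 hz).2)
    · simp only [← sq]
      refine (sum_card_divisors_sq_le _).trans (le_of_le_of_eq (mul_le_mul_of_nonneg_left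
        (pow_le_pow_left₀ (by linarith [one_le_logOne (P ^ 2)])
          (logOne_le_scale (P := P) (by omega)) 3)
        (Nat.cast_nonneg _)) (by push_cast; ring))
  have hsymm : ∀ m n, F n m = F m n := fun m n => by
    rw [hF]
    simp only
    norm_cast
    refine card_bij' (fun w _ => w.swap) (fun w _ => w.swap) (fun w hw => ?_) (fun w hw => ?_)
      (fun w _ => rfl) (fun w _ => rfl)
    all_goals
      simp only [mem_filter, mem_product, Prod.fst_swap, Prod.snd_swap] at hw ⊢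
      exact ⟨⟨hw.1.2, hw.1.1⟩, hw.2.symm⟩
  have hdiag : ∑ z ∈ (S ×ˢ S).filter (fun z => z.2 = z.1), F z.1 z.2 ≤
      (P : ℝ) ^ 2 * scale P ^ 3 := by
    have hcard : ∀ T : Finset (ℕ × ℕ), (∀ z ∈ T, z.1 ∈ S ∧ z.2 = z.1) → T.card ≤ P := by
      intro T hT
      refine (card_le_card_of_injOn (fun z => z.1) (fun z hz => (hT z hz).1)
        fun z hz w hw e => Prod.ext e ((hT z hz).2.trans (e.trans (hT w hw).2.symm))).trans ?_
      rw [hS, Nat.card_Ioc, Nat.sub_zero]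
    refine (sum_le_card_nsmul _ _ (P : ℝ) fun z hz => ?_).trans ?_
    · rw [hF]
      refine Nat.cast_le.2 (hcard _ fun w hw => ?_)
      rw [mem_filter, mem_product] at hw
      refine ⟨hw.1.1, Nat.pow_left_injective two_ne_zero (?_ : w.2 ^ 2 = w.1 ^ 2)⟩
      have := hw.2
      rw [(mem_filter.1 hz).2] at this
      omega
    · rw [nsmul_eq_mul, sq, mul_assoc (P : ℝ)]
      refine mul_le_mul (Nat.cast_le.2 (hcard _ fun w hw => ?_))
        (le_mul_of_one_le_right (Nat.cast_nonneg P) (one_le_pow₀ (one_le_scale P)))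
        (Nat.cast_nonneg P) (Nat.cast_nonneg P)
      rw [mem_filter, mem_product] at hw
      exact ⟨hw.1.1, hw.2⟩
  have hhigh : ∑ z ∈ (S ×ˢ S).filter (fun z => z.1 < z.2), F z.1 z.2 =
      ∑ z ∈ (S ×ˢ S).filter (fun z => z.2 < z.1), F z.1 z.2 := by
    refine sum_nbij' Prod.swap Prod.swap (fun z hz => ?_) (fun z hz => ?_) (fun z _ => rfl)
      (fun z _ => rfl) fun z _ => (hsymm z.1 z.2).symm
    all_goals
      simp only [mem_filter, mem_product, Prod.fst_swap, Prod.snd_swap] at hz ⊢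
      exact ⟨⟨hz.1.2, hz.1.1⟩, hz.2⟩
  have hsplit : ∑ z ∈ S ×ˢ S, F z.1 z.2 = ∑ z ∈ (S ×ˢ S).filter (fun z => z.2 = z.1), F z.1 z.2 +
      ∑ z ∈ (S ×ˢ S).filter (fun z => z.2 < z.1), F z.1 z.2 +
        ∑ z ∈ (S ×ˢ S).filter (fun z => z.1 < z.2), F z.1 z.2 := by
    simp only [sum_filter, ← sum_add_distrib]
    refine sum_congr rfl fun z _ => ?_
    rcases lt_trichotomy z.2 z.1 with h | h | h
    · simp [h, h.ne, h.not_gt]
    · simp [h]
    · simp [h, h.ne', h.not_gt]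
  have := hsplit.trans_le (add_le_add (add_le_add hdiag hlow) (hhigh.trans_le hlow))
  rw [hF] at this
  linarith

theorem quadrupleSum_le {f : ℕ → ℝ} {P : ℕ} {B : ℝ} (hf : ∀ n ∈ Ioc 0 P, |f n| ≤ B) :
    quadrupleSum f P ≤ B ^ 4 * (3 * (P : ℝ) ^ 2 * scale P ^ 3) := by
  rcases Nat.eq_zero_or_pos P with rfl | hP
  · simp [quadrupleSum]
  have hB : 0 ≤ B := (abs_nonneg _).trans (hf 1 (mem_Ioc.2 ⟨one_pos, hP⟩))
  refine le_trans ?_ (mul_le_mul_of_nonneg_left (sum_quadruples_le P) (by positivity))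
  simp only [card_filter, Nat.cast_sum, mul_sum, quadrupleSum, sum_product]
  refine le_of_le_of_eq (sum_le_sum fun a ha => sum_le_sum fun b hb => sum_le_sum fun c hc =>
    sum_le_sum (g := fun d => B ^ 4 *
      ((if a ^ 2 + b ^ 2 = c ^ 2 + d ^ 2 then 1 else 0 : ℕ) : ℝ)) fun d hd => ?_) ?_
  · split_ifs with h
    · refine (le_abs_self _).trans ?_
      rw [abs_mul, abs_mul, abs_mul, Nat.cast_one, mul_one]
      calc |f a| * |f b| * (|f c| * |f d|) ≤ B * B * (B * B) := by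
            gcongr
            exacts [hf a ha, hf b hb, hf c hc, hf d hd]
        _ = _ := by ring
    · simp
  · refine sum_congr rfl fun a _ => ?_
    rw [sum_comm]

/-- **The fourth moment on the grid.** -/
theorem sum_norm_squareTwist_pow_four (f : ℕ → ℝ) {P M : ℕ} (hM : 2 * P ^ 2 < M) :
    ∑ h ∈ range M, ‖squareTwist ((h : ℝ) / M) f P‖ ^ 4 = M * quadrupleSum f P := by
  obtain ⟨F, hF⟩ : ∃ F : ℕ → ℝ, F = fun n =>
      ∑ z ∈ (Ioc 0 P ×ˢ Ioc 0 P).filter (fun z => z.1 ^ 2 + z.2 ^ 2 = n), f z.1 * f z.2 :=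
    ⟨_, rfl⟩
  have hmaps : ∀ z ∈ Ioc 0 P ×ˢ Ioc 0 P, z.1 ^ 2 + z.2 ^ 2 ∈ Icc 1 (2 * P ^ 2) := by
    intro z hz
    rw [mem_product, mem_Ioc, mem_Ioc] at hz
    have h1 : 0 < z.1 ^ 2 := pow_pos hz.1.1 2
    have h2 := Nat.pow_le_pow_left hz.1.2 2
    have h3 := Nat.pow_le_pow_left hz.2.2 2
    rw [mem_Icc]
    omega
  have hsq : ∀ x : ℝ, squareTwist x f P ^ 2 = trigSum (fun n => (F n : ℂ)) (2 * P ^ 2) x := by
    intro x
    rw [sq, squareTwist, sum_mul_sum, trigSum, ← sum_product']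
    rw [← sum_fiberwise_of_maps_to hmaps]
    refine sum_congr rfl fun n _ => ?_
    rw [hF, Complex.ofReal_sum, sum_mul]
    refine sum_congr rfl fun z hz => ?_
    rw [← (mem_filter.1 hz).2, mul_mul_mul_comm, ← eAdd_add]
    push_cast
    ring_nf
  have h4 : ∀ x : ℝ, ‖squareTwist x f P‖ ^ 4 =
      ‖trigSum (fun n => (F n : ℂ)) (2 * P ^ 2) x‖ ^ 2 := fun x => by
    rw [← hsq, norm_pow, ← pow_mul]
  simp only [h4]
  rw [sum_norm_sq_grid _ hM]
  congr 1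
  rw [quadrupleSum, ← sum_fiberwise_of_maps_to hmaps]
  refine sum_congr rfl fun n hn => ?_
  rw [Complex.norm_real, Real.norm_eq_abs, sq_abs, hF, sq]
  simp only
  rw [sum_mul_sum]
  refine sum_congr rfl fun z hz => ?_
  rw [sum_filter]
  refine sum_congr rfl fun w _ => ?_
  rw [(mem_filter.1 hz).2]
  exact if_congr eq_comm rfl rfl

end FA.HuaSquares
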