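import Fermat.Agent.ThreePrimes.Vaughan
import Fermat.Agent.WaringAsymptotic.Weyl

/-!
# Quadratic exponential sums

`|∑ e (γ k²)|² ≤ M + 2 ∑ clip (M, 2 h γ)`, and the bilinear sums `∑ f m g k e (α m² k²)`: by two
applications of Cauchy's inequality they are governed by the multiplicity of `m² - m'²`, at most
the number of its divisors, and Vinogradov's lemma (Vinogradov; Ghosh).
-/

set_option autoImplicit false

noncomputable section

namespace FA.HuaSquares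

open Finset FA.ThreePrimes
open scoped ComplexConjugate

/-- `∑_{k ≤ K} e (γ k²)`. -/
def quadSum (γ : ℝ) (K : ℕ) : ℂ := ∑ k ∈ Ioc 0 K, eAdd (γ * (k : ℝ) ^ 2)

theorem norm_quadSum_le (γ : ℝ) (K : ℕ) : ‖quadSum γ K‖ ≤ K := by
  refine (norm_sum_le _ _).trans ?_
  simp [norm_eAdd]

theorem conj_quadSum (γ : ℝ) (K : ℕ) : conj (quadSum γ K) = quadSum (-γ) K := by
  simp only [quadSum, map_sum, conj_eAdd, neg_mul]

/-- **Weyl's inequality.** -/
theorem norm_quadSum_sq_le {K M : ℕ} (hKM : K ≤ M) (γ : ℝ) :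
    ‖quadSum γ K‖ ^ 2 ≤ M + 2 * ∑ h ∈ Icc 1 M, clip M (2 * ((h : ℝ) * γ)) := by
  classical
  rcases Nat.eq_zero_or_pos M with rfl | hM
  · obtain rfl : K = 0 := by omega
    simp [quadSum]
  have h := WaringAsymptotic.weyl_differencing 1 (WaringAsymptotic.hasLead_pow γ 2) (P := M) hM
    0 K (by omega)
  have e : quadSum γ K = ∑ x ∈ Ioc (0 : ℤ) K, eAdd (γ * (x : ℝ) ^ 2) := by
    rw [← WaringAsymptotic.waringSum_eq_int]
    rfl
  rw [← e] at h
  norm_num [WaringAsymptotic.steps] at h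
  rw [WaringAsymptotic.sum_piFinset_succ] at h
  simp only [Fintype.piFinset_of_isEmpty, univ_unique, sum_singleton, Fin.cons_zero] at h
  refine h.trans ?_
  obtain ⟨F, hF⟩ : ∃ F : ℤ → ℝ, F = fun x : ℤ => clip M (γ * 2 * (x : ℝ)) := ⟨_, rfl⟩
  have hneg : ∀ x, F (-x) = F x := fun x => by
    rw [hF]
    simp only [Int.cast_neg, mul_neg, ThreePrimes.clip_neg]
  have hF0 : ∀ x, 0 ≤ F x := fun x => hF ▸ clip_nonneg (Nat.cast_nonneg M) _
  have hzero : F 0 ≤ M := hF ▸ clip_le _ _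
  calc ∑ x ∈ Ioo (-(M : ℤ)) M, clip M (γ * 2 * (x : ℝ))
      ≤ F 0 + 2 * ∑ h ∈ Icc 1 M, F h := by
        rw [show ∑ x ∈ Ioo (-(M : ℤ)) M, clip M (γ * 2 * (x : ℝ)) =
          ∑ x ∈ Ioo (-(M : ℤ)) M, F x by rw [hF]]
        refine (sum_le_sum_of_subset_of_nonneg (t := Icc (-(M : ℤ)) M) Ioo_subset_Icc_self
          fun x _ _ => hF0 x).trans (le_of_eq ?_)
        clear * - hneg
        induction M with
        | zero => simp
        | succ n ih =>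
          have hI : Icc (-((n + 1 : ℕ) : ℤ)) ((n + 1 : ℕ) : ℤ) =
              insert ((n + 1 : ℕ) : ℤ) (insert (-((n + 1 : ℕ) : ℤ)) (Icc (-(n : ℤ)) n)) := by
            ext x
            simp only [mem_insert, mem_Icc]
            omega
          rw [hI, sum_insert (by simp; omega), sum_insert (by simp), ih, hneg,
            sum_Icc_succ_top (show 1 ≤ n + 1 by omega)]
          ring
    _ ≤ _ := by
        refine add_le_add hzero (le_of_eq ?_)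
        rw [hF]
        refine congrArg _ (sum_congr rfl fun x _ => congrArg _ ?_)
        push_cast
        ring

/-- **The multiplicity of `m² - n²`** is at most the number of its divisors. -/
theorem sum_sq_diff_le (S : Finset ℕ) {L : ℕ} (hS : ∀ m ∈ S, m ≤ L) (G : ℕ → ℝ)
    (hG : ∀ D, 0 ≤ G D) :
    ∑ z ∈ (S ×ˢ S).filter (fun z => z.2 < z.1), G (z.1 ^ 2 - z.2 ^ 2) ≤
      ∑ D ∈ Ioc 0 (L ^ 2), (D.divisors.card : ℝ) * G D := by
  have hmaps : ∀ z ∈ (S ×ˢ S).filter (fun z => z.2 < z.1), z.1 ^ 2 - z.2 ^ 2 ∈ Ioc 0 (L ^ 2) := by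
    intro z hz
    rw [mem_filter, mem_product] at hz
    have h1 : z.2 ^ 2 < z.1 ^ 2 := Nat.pow_lt_pow_left hz.2 two_ne_zero
    have h2 : z.1 ^ 2 ≤ L ^ 2 := Nat.pow_le_pow_left (hS _ hz.1.1) 2
    rw [mem_Ioc]
    omega
  rw [← sum_fiberwise_of_maps_to hmaps]
  refine sum_le_sum fun D hD => ?_
  rw [sum_congr rfl fun z hz => by rw [(mem_filter.1 hz).2], sum_const, nsmul_eq_mul]
  refine mul_le_mul_of_nonneg_right (Nat.cast_le.2 ?_) (hG D)
  refine card_le_card_of_injOn (fun z => z.1 - z.2) (fun z hz => ?_) fun z hz w hw e => ?_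
  · simp only [mem_coe, mem_filter] at hz ⊢
    rw [Nat.mem_divisors, ← hz.2, Nat.sq_sub_sq]
    refine ⟨dvd_mul_left _ _, ?_⟩
    have := mem_Ioc.1 hD
    have := hz.2
    rw [Nat.sq_sub_sq] at this
    omega
  · simp only [mem_coe, mem_filter] at hz hw e
    have h1 := hz.2.trans hw.2.symm
    rw [Nat.sq_sub_sq, Nat.sq_sub_sq, e] at h1
    have h2 := Nat.eq_of_mul_eq_mul_right (by omega : 0 < w.1 - w.2) h1
    exact Prod.ext (by omega) (by omega)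

/-- The products `2 h D`. -/
theorem sum_two_mul_le (X M : ℕ) (F : ℕ → ℝ) (hF : ∀ j, 0 ≤ F j) :
    ∑ D ∈ Ioc 0 X, ∑ h ∈ Icc 1 M, F (2 * h * D) ≤
      ∑ j ∈ Ioc 0 (2 * M * X), (j.divisors.card : ℝ) * F j := by
  rw [← sum_product']
  have hmaps : ∀ z ∈ Ioc 0 X ×ˢ Icc 1 M, 2 * z.2 * z.1 ∈ Ioc 0 (2 * M * X) := by
    intro z hz
    rw [mem_product, mem_Ioc, mem_Icc] at hz
    rw [mem_Ioc]
    exact ⟨Nat.mul_pos (by omega) hz.1.1, Nat.mul_le_mul (by omega) hz.1.2⟩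
  rw [← sum_fiberwise_of_maps_to hmaps]
  refine sum_le_sum fun j hj => ?_
  rw [sum_congr rfl fun z hz => by rw [(mem_filter.1 hz).2], sum_const, nsmul_eq_mul]
  refine mul_le_mul_of_nonneg_right (Nat.cast_le.2 ?_) (hF j)
  rw [mem_Ioc] at hj
  refine card_le_card_of_injOn (fun z => z.1) (fun z hz => ?_) fun z hz w hw e => ?_
  · simp only [mem_coe, mem_filter] at hz ⊢
    rw [Nat.mem_divisors, ← hz.2]
    exact ⟨dvd_mul_left _ _, hz.2 ▸ (by omega)⟩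
  · simp only [mem_coe, mem_filter, mem_product, mem_Ioc] at hz hw e
    have h1 := hz.2.trans hw.2.symm
    rw [e] at h1
    have h2 := Nat.eq_of_mul_eq_mul_right hw.1.1.1 h1
    exact Prod.ext e (by omega)

/-- The bound for `|∑ e (α D k²)|²`, averaged below over `D`. -/
def weylBound (α : ℝ) (M D : ℕ) : ℝ :=
  M + 2 * ∑ h ∈ Icc 1 M, clip M (α * (2 * h * D : ℕ))

theorem weylBound_nonneg (α : ℝ) (M D : ℕ) : 0 ≤ weylBound α M D :=
  add_nonneg (Nat.cast_nonneg M) (mul_nonneg zero_le_two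
    (sum_nonneg fun _ _ => clip_nonneg (Nat.cast_nonneg M) _))

theorem weylBound_le (α : ℝ) {M : ℕ} (hM : 1 ≤ M) (D : ℕ) :
    weylBound α M D ≤ 3 * (M : ℝ) ^ 2 := by
  have h1 : (1 : ℝ) ≤ M := by exact_mod_cast hM
  refine (add_le_add le_rfl (mul_le_mul_of_nonneg_left (sum_le_card_nsmul _ _ (M : ℝ)
    fun h _ => clip_le _ _) zero_le_two)).trans ?_
  rw [Nat.card_Icc, nsmul_eq_mul, Nat.add_sub_cancel]
  nlinarith

theorem norm_quadSum_mul_sq_le {K M : ℕ} (hKM : K ≤ M) (α : ℝ) (D : ℕ) :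
    ‖quadSum (α * D) K‖ ^ 2 ≤ weylBound α M D := by
  refine (norm_quadSum_sq_le hKM _).trans (le_of_eq ?_)
  refine congrArg _ (congrArg _ (sum_congr rfl fun h _ => congrArg _ ?_))
  push_cast
  ring

/-- `∑_{k ≤ P/m} g k e (α m² k²)`. -/
def squareInner (α : ℝ) (g : ℕ → ℝ) (P m : ℕ) : ℂ :=
  ∑ k ∈ Ioc 0 (P / m), (g k : ℂ) * eAdd (α * ((m : ℝ) * k) ^ 2)

/-- The first application of Cauchy's inequality. -/
theorem norm_bilinear_sq_le (α : ℝ) (f g : ℕ → ℝ) {P L M : ℕ} (hL : 0 < L) (hM : M = P / L) :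
    ‖∑ m ∈ Ioc L (2 * L), (f m : ℂ) * squareInner α g P m‖ ^ 2 ≤
      (∑ k ∈ Ioc 0 M, g k ^ 2) * ∑ z ∈ Ioc L (2 * L) ×ˢ Ioc L (2 * L), |f z.1 * f z.2| *
        ‖quadSum (α * ((z.1 : ℝ) ^ 2 - (z.2 : ℝ) ^ 2)) (min (P / z.1) (P / z.2))‖ := by
  classical
  obtain ⟨S, hS⟩ : ∃ S, S = Ioc L (2 * L) := ⟨_, rfl⟩
  obtain ⟨R, hR⟩ : ∃ R : ℕ → ℂ, R = fun k : ℕ =>
      ∑ m ∈ S.filter (fun m => k ≤ P / m), (f m : ℂ) * eAdd (α * ((m : ℝ) * k) ^ 2) := ⟨_, rfl⟩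
  have hle : ∀ m ∈ S, P / m ≤ M := fun m hm => by
    rw [hS, mem_Ioc] at hm
    exact hM ▸ Nat.div_le_div_left hm.1.le hL
  have e1 : ∑ m ∈ S, (f m : ℂ) * squareInner α g P m = ∑ k ∈ Ioc 0 M, (g k : ℂ) * R k := by
    simp only [squareInner, hR, mul_sum]
    rw [sum_comm' (t' := Ioc 0 M) (s' := fun k => S.filter (fun m => k ≤ P / m))]
    · exact sum_congr rfl fun k _ => sum_congr rfl fun m _ => by ring
    · intro m k
      simp only [mem_Ioc, mem_filter]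
      constructor
      · rintro ⟨hm, hk0, hk⟩
        exact ⟨⟨hm, hk⟩, hk0, hk.trans (hle m hm)⟩
      · rintro ⟨⟨hm, hk⟩, hk0, -⟩
        exact ⟨hm, hk0, hk⟩
  rw [← hS, e1]
  refine (pow_le_pow_left₀ (norm_nonneg _) (norm_sum_le _ _) 2).trans ?_
  simp only [norm_mul]
  refine (sum_mul_sq_le_sq_mul_sq _ _ _).trans ?_
  refine mul_le_mul (le_of_eq (sum_congr rfl fun k _ => ?_)) ?_
    (sum_nonneg fun _ _ => sq_nonneg _) (sum_nonneg fun _ _ => sq_nonneg _)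
  · rw [Complex.norm_real, Real.norm_eq_abs, sq_abs]
  have e2 : ((∑ k ∈ Ioc 0 M, ‖R k‖ ^ 2 : ℝ) : ℂ) = ∑ z ∈ S ×ˢ S,
      ((f z.1 * f z.2 : ℝ) : ℂ) *
        quadSum (α * ((z.1 : ℝ) ^ 2 - (z.2 : ℝ) ^ 2)) (min (P / z.1) (P / z.2)) := by
    have hq : ∀ z ∈ S ×ˢ S,
        quadSum (α * ((z.1 : ℝ) ^ 2 - (z.2 : ℝ) ^ 2)) (min (P / z.1) (P / z.2)) =
          ∑ k ∈ Ioc 0 M, if k ≤ P / z.1 ∧ k ≤ P / z.2 then
            eAdd (α * ((z.1 : ℝ) * k) ^ 2) * conj (eAdd (α * ((z.2 : ℝ) * k) ^ 2)) else 0 := by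
      intro z hz
      have h1 := hle z.1 (mem_product.1 hz).1
      rw [quadSum, ← sum_filter]
      refine sum_congr (ext fun k => ?_) fun k _ => ?_
      · simp only [mem_Ioc, mem_filter, le_min_iff]
        omega
      · rw [conj_eAdd, ← eAdd_add]
        ring_nf
    have hR' : ∀ k, ((‖R k‖ ^ 2 : ℝ) : ℂ) = ∑ z ∈ S ×ˢ S, ((f z.1 * f z.2 : ℝ) : ℂ) *
        if k ≤ P / z.1 ∧ k ≤ P / z.2 then
          eAdd (α * ((z.1 : ℝ) * k) ^ 2) * conj (eAdd (α * ((z.2 : ℝ) * k) ^ 2)) else 0 := by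
      intro k
      simp only [Complex.ofReal_pow, ← Complex.mul_conj', hR, sum_filter, map_sum, sum_mul_sum]
      rw [sum_product]
      refine sum_congr rfl fun m _ => sum_congr rfl fun n _ => ?_
      split_ifs with h1 h2 h3 <;> simp_all [mul_mul_mul_comm]
    rw [Complex.ofReal_sum, sum_congr rfl fun k _ => hR' k, sum_comm]
    exact sum_congr rfl fun z hz => by rw [hq z hz, mul_sum]
  calc ∑ k ∈ Ioc 0 M, ‖R k‖ ^ 2 = ‖((∑ k ∈ Ioc 0 M, ‖R k‖ ^ 2 : ℝ) : ℂ)‖ := by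
        rw [Complex.norm_real, Real.norm_eq_abs,
          abs_of_nonneg (sum_nonneg fun k _ => sq_nonneg _)]
    _ ≤ _ := by
        rw [e2]
        refine (norm_sum_le _ _).trans (le_of_eq (sum_congr rfl fun z _ => ?_))
        rw [norm_mul, Complex.norm_real, Real.norm_eq_abs]

/-- The second: the mean square of the inner sums. -/
theorem sum_quadSum_sq_le (α : ℝ) {P L M : ℕ} (hL : 0 < L) (hM : M = P / L) :
    ∑ z ∈ Ioc L (2 * L) ×ˢ Ioc L (2 * L),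
      ‖quadSum (α * ((z.1 : ℝ) ^ 2 - (z.2 : ℝ) ^ 2)) (min (P / z.1) (P / z.2))‖ ^ 2 ≤
    (L : ℝ) * (M : ℝ) ^ 2 +
      2 * ∑ D ∈ Ioc 0 ((2 * L) ^ 2), (D.divisors.card : ℝ) * weylBound α M D := by
  obtain ⟨S, hS⟩ : ∃ S, S = Ioc L (2 * L) := ⟨_, rfl⟩
  obtain ⟨F, hF⟩ : ∃ F : ℕ → ℕ → ℝ, F = fun m n : ℕ =>
      ‖quadSum (α * ((m : ℝ) ^ 2 - (n : ℝ) ^ 2)) (min (P / m) (P / n))‖ ^ 2 := ⟨_, rfl⟩
  have hK : ∀ m ∈ S, ∀ n, min (P / m) (P / n) ≤ M := fun m hm n => by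
    rw [hS, mem_Ioc] at hm
    exact (min_le_left _ _).trans (hM ▸ Nat.div_le_div_left hm.1.le hL)
  have hsymm : ∀ m n, F n m = F m n := fun m n => by
    rw [hF]
    simp only
    rw [min_comm, show α * ((n : ℝ) ^ 2 - (m : ℝ) ^ 2) = -(α * ((m : ℝ) ^ 2 - (n : ℝ) ^ 2)) by
      ring, ← conj_quadSum, Complex.norm_conj]
  have hlow : ∑ z ∈ (S ×ˢ S).filter (fun z => z.2 < z.1), F z.1 z.2 ≤
      ∑ D ∈ Ioc 0 ((2 * L) ^ 2), (D.divisors.card : ℝ) * weylBound α M D := by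
    refine (sum_le_sum fun z hz => ?_).trans (sum_sq_diff_le S (L := 2 * L)
      (fun m hm => (mem_Ioc.1 (hS ▸ hm)).2) (weylBound α M) (weylBound_nonneg α M))
    rw [mem_filter, mem_product] at hz
    rw [hF]
    simp only
    have h := norm_quadSum_mul_sq_le (hK _ hz.1.1 z.2) α (z.1 ^ 2 - z.2 ^ 2)
    rwa [Nat.cast_sub (Nat.pow_le_pow_left hz.2.le 2), Nat.cast_pow, Nat.cast_pow] at h
  have hdiag : ∑ z ∈ (S ×ˢ S).filter (fun z => z.2 = z.1), F z.1 z.2 ≤ (L : ℝ) * (M : ℝ) ^ 2 := by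
    refine (sum_le_card_nsmul _ _ ((M : ℝ) ^ 2) fun z hz => ?_).trans ?_
    · rw [mem_filter, mem_product] at hz
      rw [hF]
      exact pow_le_pow_left₀ (norm_nonneg _)
        ((norm_quadSum_le _ _).trans (Nat.cast_le.2 (hK _ hz.1.1 z.2))) 2
    · rw [nsmul_eq_mul]
      refine mul_le_mul_of_nonneg_right (Nat.cast_le.2 ?_) (sq_nonneg _)
      refine (card_le_card_of_injOn (fun z => z.1) (fun z hz => ?_) fun z hz w hw e => ?_).trans
        (show S.card ≤ L by rw [hS, Nat.card_Ioc]; omega)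
      · simp only [mem_coe, mem_filter, mem_product] at hz ⊢
        exact hz.1.1
      · simp only [mem_coe, mem_filter] at hz hw e
        exact Prod.ext e (by rw [hz.2, hw.2]; exact e)
  have hhigh : ∑ z ∈ (S ×ˢ S).filter (fun z => z.1 < z.2), F z.1 z.2 =
      ∑ z ∈ (S ×ˢ S).filter (fun z => z.2 < z.1), F z.1 z.2 := by
    refine sum_nbij' Prod.swap Prod.swap (fun z hz => ?_) (fun z hz => ?_) (fun z _ => rfl)
      (fun z _ => rfl) fun z _ => (hsymm z.1 z.2).symm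
    all_goals
      simp only [mem_filter, mem_product, Prod.fst_swap, Prod.snd_swap] at hz ⊢
      exact ⟨⟨hz.1.2, hz.1.1⟩, hz.2⟩
  have hsplit : ∑ z ∈ S ×ˢ S, F z.1 z.2 = ∑ z ∈ (S ×ˢ S).filter (fun z => z.2 = z.1), F z.1 z.2 +
      ∑ z ∈ (S ×ˢ S).filter (fun z => z.2 < z.1), F z.1 z.2 +
        ∑ z ∈ (S ×ˢ S).filter (fun z => z.1 < z.2), F z.1 z.2 := by
    simp only [sum_filter, ← sum_add_distrib]
    refine sum_congr rfl fun z _ => ?_
    rcases lt_trichotomy z.2 z.1 with h | h | h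
    · simp [h, h.ne, h.not_gt]
    · simp [h]
    · simp [h, h.ne', h.not_gt]
  rw [hF] at hsplit
  rw [← hS, hsplit, hF] at *
  linarith

end FA.HuaSquares
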